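/-
GATE-C / C3-HILBERT (helper61), brick (H5): LEFT NON-DEGENERACY of the local Hilbert pairing.

`K` a finite extension of `ℚ_q`, `Ω/K` Galois, `χ : Gal(Ω/K) →* ZMod n` of exact order `n ≥ 2` with
`ker χ = Gal(Ω/F)`.  Then `F/K` is cyclic of degree `n`, some `a ∈ Kˣ` is NOT a norm from `F`
(helper67's local norm index theorem), and for every `α` with `α ^ n = a` the class of `χ ∪ κ(α)`
in `Hlc²(Gal(Ω/K), Ωˣ)` is nonzero.
-/
import Mathlib
import Fermat.Agent.GC.Local.Hilbert.SymbolGalois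
import Fermat.Agent.GC.Local.Herbrand.CyclicInput

set_option autoImplicit false

namespace Fermat.Agent.GC.Local.Hilbert

open CategoryTheory groupCohomology Rep IntermediateField
open Fermat.Agent.GC.Local.CycH2 Fermat.Agent.GC.Tate.InfRes2 Fermat.Agent.GC.Prof
open Fermat.Agent.GC.Local.Abs
open scoped Padic

section Char

variable {K : Type*} {Ω : Type} [Field K] [Field Ω] [Algebra K Ω] [IsGalois K Ω]
  (F : IntermediateField K Ω) [FiniteDimensional K F] [IsGalois K F]
  {n : ℕ} [NeZero n] (χ : (Ω ≃ₐ[K] Ω) →* Multiplicative (ZMod n))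
  (hχ : χ.ker = F.fixingSubgroup) (τ : Ω ≃ₐ[K] Ω) (hτ : χ τ = Multiplicative.ofAdd 1)

omit [FiniteDimensional K F] in
include hχ hτ in
/-- the restriction of `τ` generates `Gal(F/K)` and has order `n`. -/
theorem isGen_restrict : IsGen (AlgEquiv.restrictNormalHom (K₁ := Ω) F τ) n := by
  have hker : (AlgEquiv.restrictNormalHom (K₁ := Ω) F).ker = χ.ker := by
    rw [hχ, IntermediateField.restrictNormalHom_ker]
  have h1 := isGen_of_char χ τ hτ
  have h2 := IsGen.map_equiv h1 ((QuotientGroup.quotientMulEquivOfEq hker.symm).trans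
    (QuotientGroup.quotientKerEquivOfSurjective (AlgEquiv.restrictNormalHom (K₁ := Ω) F)
      (AlgEquiv.restrictNormalHom_surjective Ω)))
  exact h2

omit [FiniteDimensional K F] in
include hχ hτ in
theorem isCyclic_of_char : IsCyclic (F ≃ₐ[K] F) :=
  ⟨⟨_, (isGen_restrict F χ hχ τ hτ).gen⟩⟩

include hχ hτ in
theorem finrank_eq_of_char : Module.finrank K F = n := by
  have h := isGen_restrict F χ hχ τ hτ
  rw [← IsGalois.card_aut_eq_finrank, ← h.order]
  exact (orderOf_eq_card_of_forall_mem_zpowers h.gen).symm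

end Char

section NotNorm

variable {K L : Type*} [Field K] [Field L] [Algebra K L] [FiniteDimensional K L]

/-- if the norm index is at least `2`, some unit of `K` is not a norm. -/
theorem exists_not_norm_of_index (h2 : 2 ≤ (MonoidHom.range (Units.map (Algebra.norm K : L →* K))).index) :
    ∃ a : Kˣ, ∀ b : L, (a : K) ≠ Algebra.norm K b := by
  by_contra hcon
  push Not at hcon
  have htop : MonoidHom.range (Units.map (Algebra.norm K : L →* K)) = ⊤ := by
    rw [eq_top_iff]
    intro a _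
    obtain ⟨b, hb⟩ := hcon a
    have hb0 : b ≠ 0 := by
      intro h0
      rw [h0, Algebra.norm_zero] at hb
      exact a.ne_zero hb
    exact ⟨Units.mk0 b hb0, Units.ext hb.symm⟩
  rw [htop, Subgroup.index_top] at h2
  omega

end NotNorm

section Local

variable (q : ℕ) [Fact q.Prime] {K : Type} {Ω : Type} [Field K] [Field Ω] [Algebra ℚ_[q] K]
  [Algebra ℚ_[q] Ω] [Algebra K Ω] [IsScalarTower ℚ_[q] K Ω] [FiniteDimensional ℚ_[q] K]
  [IsGalois K Ω] (F : IntermediateField K Ω) [FiniteDimensional K F] [IsGalois K F]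
  {n : ℕ} [NeZero n] (χ : (Ω ≃ₐ[K] Ω) →* Multiplicative (ZMod n))
  (hχ : χ.ker = F.fixingSubgroup) (τ : Ω ≃ₐ[K] Ω) (hτ : χ τ = Multiplicative.ofAdd 1)

include q hχ hτ in
/-- **Left non-degeneracy, norm form**: for a character `χ` of order `n ≥ 2` of the absolute Galois
group of a `q`-adic field `K`, some unit of `K` is not a norm from the cyclic extension cut out
by `χ` (helper67's local norm index theorem). -/
theorem exists_not_norm (hn : 2 ≤ n) : ∃ a : Kˣ, ∀ b : F, (a : K) ≠ Algebra.norm K b := by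
  have : IsCyclic (F ≃ₐ[K] F) := isCyclic_of_char F χ hχ τ hτ
  have : FiniteDimensional ℚ_[q] F := FiniteDimensional.trans ℚ_[q] K F
  have hidx := Fermat.Agent.GC.Local.Herbrand.norm_index_padic_of_isCyclic q K F
  apply exists_not_norm_of_index
  rw [hidx, finrank_eq_of_char F χ hχ τ hτ]
  exact hn

end Local

section Combined

variable {K : Type*} {Ω : Type} [Field K] [Field Ω] [Algebra K Ω] [IsGalois K Ω]
  (F : IntermediateField K Ω) [FiniteDimensional K F] [IsGalois K F]
  {n : ℕ} [NeZero n] (χ : (Ω ≃ₐ[K] Ω) →* Multiplicative (ZMod n))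
  (hχ : χ.ker = F.fixingSubgroup) (τ : Ω ≃ₐ[K] Ω) (hτ : χ τ = Multiplicative.ofAdd 1)

omit [IsGalois K Ω] [NeZero n] in
lemma apply_pow_eq_of_eq_algebraMap (a : K) (α : Ωˣ) (hαa : (α : Ω) ^ n = algebraMap K Ω a)
    (g : Ω ≃ₐ[K] Ω) : g ((α : Ω) ^ n) = (α : Ω) ^ n := by
  rw [hαa, g.commutes]

/-- if `a ∈ K` is not a norm from `F` and `α ^ n = a`, the class of `χ ∪ κ(α)` in
`Hlc²(Gal(Ω/K), Ωˣ)` is nonzero. -/
theorem Hlc2π_symb_ne_zero_of_not_norm (a : K) (ha : ∀ b : F, a ≠ Algebra.norm K b) (α : Ωˣ)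
    (hαa : (α : Ω) ^ n = algebraMap K Ω a) :
    Hlc2π (galLevels K Ω) (unitsRep K Ω) ⟨symb (unitsRep K Ω) χ.ker
      (isGen_of_char χ τ hτ) (toU K Ω α),
      symb_mem_lcCocycles₂ _ _ _ (ker_mem_galLevels F χ hχ) _
        (rho_nsmul_toU α (apply_pow_eq_of_eq_algebraMap a α hαa))⟩ ≠ 0 := by
  intro h
  obtain ⟨b, hb⟩ := (Hlc2π_symb_units_eq_zero_iff F χ hχ τ hτ α
    (apply_pow_eq_of_eq_algebraMap a α hαa)).1 h
  rw [hαa] at hb
  exact ha b ((algebraMap K Ω).injective hb)

end Combined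

end Fermat.Agent.GC.Local.Hilbert
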