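import Mathlib
import Fermat.Agent.GC.Local.Hilbert.NonDegNorm

set_option autoImplicit false

namespace Fermat.Agent.GC.Local.Hilbert

open CategoryTheory groupCohomology Rep IntermediateField
open Fermat.Agent.GC.Local.CycH2 Fermat.Agent.GC.Tate.InfRes2 Fermat.Agent.GC.Prof
open Fermat.Agent.GC.Local.Abs
open scoped Padic

section Levels

variable {K : Type*} {Ω : Type} [Field K] [Field Ω] [Algebra K Ω] [IsGalois K Ω]

/-- a subgroup containing a member of `galLevels` is a member. -/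
theorem mem_galLevels_of_le {H U : Subgroup (Ω ≃ₐ[K] Ω)} (hU : U ∈ (galLevels K Ω).sets)
    (hle : U ≤ H) : H ∈ (galLevels K Ω).sets := by
  obtain ⟨E, hE, rfl⟩ := hU
  have hopen : IsOpen (H : Set (Ω ≃ₐ[K] Ω)) :=
    Subgroup.isOpen_mono hle ((InfiniteGalois.isOpen_iff_finite E).2 hE)
  have hclosed : IsClosed (H : Set (Ω ≃ₐ[K] Ω)) := Subgroup.isClosed_of_isOpen H hopen
  have hfix : (IntermediateField.fixedField H).fixingSubgroup = H :=
    InfiniteGalois.fixingSubgroup_fixedField ⟨H, hclosed⟩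
  have hfd : FiniteDimensional K (IntermediateField.fixedField H) := by
    rw [← InfiniteGalois.isOpen_iff_finite]
    show IsOpen ((IntermediateField.fixedField H).fixingSubgroup : Set (Ω ≃ₐ[K] Ω))
    rw [hfix]
    exact hopen
  exact ⟨IntermediateField.fixedField H, hfd, hfix.symm⟩

end Levels

section RootsOfUnity

variable {M : Type*} [Monoid M] {p : ℕ} [NeZero p] {z : M}

/-- `i ↦ z ^ i.val` on `ZMod p`, for `z ^ p = 1`. -/
def zpw (z : M) (i : ZMod p) : M := z ^ i.val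

theorem zpw_add (hz : z ^ p = 1) (i j : ZMod p) : zpw z (i + j) = zpw z i * zpw z j := by
  unfold zpw
  rw [ZMod.val_add, ← pow_add, pow_eq_pow_mod (i.val + j.val) hz]

omit [NeZero p] in
theorem zpw_mul (hz : z ^ p = 1) (i j : ZMod p) : zpw z (i * j) = (zpw z i) ^ j.val := by
  unfold zpw
  rw [ZMod.val_mul, ← pow_mul, pow_eq_pow_mod (i.val * j.val) hz]

omit [NeZero p] in
theorem zpw_zero : zpw z (0 : ZMod p) = 1 := by
  unfold zpw
  rw [ZMod.val_zero, pow_zero]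

end RootsOfUnity

section Kummer

variable {K : Type*} {Ω : Type} [Field K] [Field Ω] [Algebra K Ω]
  {p : ℕ} [Fact p.Prime] {ζ : K} (hζ : IsPrimitiveRoot ζ p)

/-- the primitive `p`-th root of unity of `K` as a unit of `Ω`. -/
noncomputable def zU : Ωˣ :=
  Units.map (algebraMap K Ω : K →* Ω) (hζ.isUnit (Fact.out : p.Prime).ne_zero).unit

theorem coe_zU : ((zU (Ω := Ω) hζ : Ωˣ) : Ω) = algebraMap K Ω ζ := rfl

theorem zU_pow : (zU (Ω := Ω) hζ) ^ p = 1 := by
  apply Units.ext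
  rw [Units.val_pow_eq_pow_val, coe_zU, ← map_pow, hζ.pow_eq_one, map_one, Units.val_one]

theorem isPrimitiveRoot_zU : IsPrimitiveRoot ((zU (Ω := Ω) hζ : Ωˣ) : Ω) p :=
  hζ.map_of_injective (algebraMap K Ω).injective

theorem map_zU (g : Ω ≃ₐ[K] Ω) : Units.map (g : Ω →* Ω) (zU (Ω := Ω) hζ) = zU hζ := by
  apply Units.ext
  show g (algebraMap K Ω ζ) = algebraMap K Ω ζ
  exact g.commutes ζ

theorem exists_zpw_eq (u : Ωˣ) (hu : u ^ p = 1) : ∃ i : ZMod p, zpw (zU (Ω := Ω) hζ) i = u := by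
  have hp : p.Prime := Fact.out
  have h1 : ((u : Ωˣ) : Ω) ^ p = 1 := by
    rw [← Units.val_pow_eq_pow_val, hu, Units.val_one]
  obtain ⟨i, hi, hiu⟩ := (isPrimitiveRoot_zU (Ω := Ω) hζ).eq_pow_of_pow_eq_one h1
  refine ⟨(i : ZMod p), ?_⟩
  apply Units.ext
  unfold zpw
  rw [Units.val_pow_eq_pow_val, ZMod.val_natCast, Nat.mod_eq_of_lt hi, hiu]

theorem zpw_injective : Function.Injective (zpw (p := p) (zU (Ω := Ω) hζ)) := by
  intro i j hij
  have h := congrArg (fun u : Ωˣ => (u : Ω)) hij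
  simp only [zpw, Units.val_pow_eq_pow_val] at h
  have := (isPrimitiveRoot_zU (Ω := Ω) hζ).pow_inj (ZMod.val_lt i) (ZMod.val_lt j) h
  exact ZMod.val_injective p this

variable (α : Ωˣ) (hα : ∀ g : Ω ≃ₐ[K] Ω, g ((α : Ω) ^ p) = (α : Ω) ^ p)

omit [Fact p.Prime] in
include hα in
theorem kumUnit_pow (g : Ω ≃ₐ[K] Ω) : (Units.map (g : Ω →* Ω) α / α) ^ p = 1 := by
  rw [div_pow, div_eq_one]
  apply Units.ext
  rw [Units.val_pow_eq_pow_val, Units.val_pow_eq_pow_val]
  show (g (α : Ω)) ^ p = _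
  rw [← map_pow, hα g]

/-- the Kummer character `ψ_α : Gal(Ω/K) → ZMod p`, `g α / α = ζ ^ ψ_α(g)`. -/
noncomputable def kumChar (g : Ω ≃ₐ[K] Ω) : ZMod p :=
  Classical.choose (exists_zpw_eq (Ω := Ω) hζ (Units.map (g : Ω →* Ω) α / α) (kumUnit_pow α hα g))

theorem zpw_kumChar (g : Ω ≃ₐ[K] Ω) :
    zpw (zU (Ω := Ω) hζ) (kumChar hζ α hα g) = Units.map (g : Ω →* Ω) α / α :=
  Classical.choose_spec
    (exists_zpw_eq (Ω := Ω) hζ (Units.map (g : Ω →* Ω) α / α) (kumUnit_pow α hα g))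

theorem map_zpw (g : Ω ≃ₐ[K] Ω) (i : ZMod p) :
    Units.map (g : Ω →* Ω) (zpw (zU (Ω := Ω) hζ) i) = zpw (zU hζ) i := by
  unfold zpw
  rw [map_pow, map_zU]

theorem kumChar_mul (g h : Ω ≃ₐ[K] Ω) :
    kumChar hζ α hα (g * h) = kumChar hζ α hα g + kumChar hζ α hα h := by
  apply zpw_injective (Ω := Ω) hζ
  rw [zpw_add (zU_pow hζ), zpw_kumChar, zpw_kumChar, zpw_kumChar]
  have h1 : Units.map ((g * h : Ω ≃ₐ[K] Ω) : Ω →* Ω) α =
      Units.map (g : Ω →* Ω) (Units.map (h : Ω →* Ω) α) := by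
    apply Units.ext; rfl
  have h2 : Units.map (g : Ω →* Ω) (Units.map (h : Ω →* Ω) α / α) = Units.map (h : Ω →* Ω) α / α := by
    rw [← zpw_kumChar hζ α hα h, map_zpw]
  rw [map_div] at h2
  rw [h1]
  have h3 : Units.map (g : Ω →* Ω) (Units.map (h : Ω →* Ω) α) =
      (Units.map (h : Ω →* Ω) α / α) * Units.map (g : Ω →* Ω) α := by
    rw [← h2, div_mul_cancel]
  rw [h3, mul_div_assoc, mul_comm]

theorem kumChar_mul_of_fix (g s : Ω ≃ₐ[K] Ω) (hs : s (α : Ω) = α) :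
    kumChar hζ α hα (g * s) = kumChar hζ α hα g := by
  apply zpw_injective (Ω := Ω) hζ
  rw [zpw_kumChar, zpw_kumChar]
  congr 1
  apply Units.ext
  show g (s (α : Ω)) = g α
  rw [hs]

end Kummer

section Main

variable (q : ℕ) [Fact q.Prime] {K Ω : Type} [Field K] [Field Ω] [Algebra ℚ_[q] K]
  [Algebra ℚ_[q] Ω] [Algebra K Ω] [IsScalarTower ℚ_[q] K Ω] [FiniteDimensional ℚ_[q] K]
  [IsGalois K Ω] [IsAlgClosed Ω] {p : ℕ} [Fact p.Prime] {ζ : K} (hζ : IsPrimitiveRoot ζ p)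

omit [IsGalois K Ω] in
/-- an additive character as a multiplicative one. -/
def charOfAdd (c : (Ω ≃ₐ[K] Ω) → ZMod p) (hc : ∀ g h, c (g * h) = c g + c h) :
    (Ω ≃ₐ[K] Ω) →* Multiplicative (ZMod p) :=
  MonoidHom.mk' (fun g => Multiplicative.ofAdd (c g)) (fun g h => by rw [hc]; rfl)

include q hζ in
/-- **Left non-degeneracy of the local cup product `H¹ × H¹ → H²` with trivial `𝔽_p`-coefficients**
(cochain form): for a nonzero level-constant character `c` of `Gal(Ω/K)` (`K` a `q`-adic field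
containing `μ_p`) there is a level-constant character `ψ` such that `c ∪ ψ` is not the coboundary
of a level-constant cochain. -/
theorem exists_cup_not_coboundary (c : (Ω ≃ₐ[K] Ω) → ZMod p)
    (hc : ∀ g h, c (g * h) = c g + c h) (hlc : IsLC₁ (galLevels K Ω) c) (hne : c ≠ 0) :
    ∃ ψ : (Ω ≃ₐ[K] Ω) → ZMod p, (∀ g h, ψ (g * h) = ψ g + ψ h) ∧ IsLC₁ (galLevels K Ω) ψ ∧
      (fun x : (Ω ≃ₐ[K] Ω) × (Ω ≃ₐ[K] Ω) => c x.1 * ψ x.2) ∉
        lcCoboundaries₂ (galLevels K Ω) (Rep.trivial (ZMod p) (Ω ≃ₐ[K] Ω) (ZMod p)) := by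
  classical
  have hp : p.Prime := Fact.out
  set χ := charOfAdd c hc with hχdef
  have hχ_apply : ∀ g, χ g = Multiplicative.ofAdd (c g) := fun g => rfl
  have hc1 : c 1 = 0 := by
    have := hc 1 1
    rw [mul_one] at this
    exact left_eq_add.mp this
  have hcpow : ∀ (g : Ω ≃ₐ[K] Ω) (k : ℕ), c (g ^ k) = k • c g := by
    intro g k
    induction k with
    | zero => rw [pow_zero, zero_smul, hc1]
    | succ k ih => rw [pow_succ, hc, ih, succ_nsmul]
  -- a generator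
  obtain ⟨τ₀, hτ₀⟩ : ∃ τ₀, c τ₀ ≠ 0 := by
    by_contra hcon
    push Not at hcon
    exact hne (funext hcon)
  set τ := τ₀ ^ ((c τ₀)⁻¹).val with hτdef
  have hτ : χ τ = Multiplicative.ofAdd 1 := by
    rw [hχ_apply, hτdef, hcpow, nsmul_eq_mul, ZMod.natCast_zmod_val, inv_mul_cancel₀ hτ₀]
  -- the kernel is a level
  have hker : χ.ker ∈ (galLevels K Ω).sets := by
    obtain ⟨U, hU, hUc⟩ := hlc
    refine mem_galLevels_of_le hU fun s hs => ?_
    rw [MonoidHom.mem_ker, hχ_apply]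
    have := hUc 1 s hs
    rw [one_mul, hc1] at this
    rw [this]
    rfl
  obtain ⟨F, hFfd, hFgal, hχF⟩ := exists_isGalois_of_mem_galLevels hker
  obtain ⟨a, ha⟩ := exists_not_norm q F χ hχF τ hτ hp.two_le
  obtain ⟨α₀, hα₀⟩ := IsAlgClosed.exists_pow_nat_eq (algebraMap K Ω (a : K)) hp.pos
  have hα₀ne : α₀ ≠ 0 := by
    intro h0
    rw [h0, zero_pow hp.ne_zero] at hα₀
    exact a.ne_zero ((algebraMap K Ω).injective (by rw [map_zero]; exact hα₀.symm))
  set α : Ωˣ := Units.mk0 α₀ hα₀ne with hαdef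
  have hαa : (α : Ω) ^ p = algebraMap K Ω (a : K) := hα₀
  have hα := apply_pow_eq_of_eq_algebraMap (a : K) α hαa
  refine ⟨kumChar hζ α hα, kumChar_mul hζ α hα, ?_, ?_⟩
  · -- level-constant
    have hint : IsIntegral K (α : Ω) := Algebra.IsIntegral.isIntegral _
    have : FiniteDimensional K K⟮(α : Ω)⟯ := IntermediateField.adjoin.finiteDimensional hint
    refine ⟨K⟮(α : Ω)⟯.fixingSubgroup, fixingSubgroup_mem_galLevels _, fun g s hs => ?_⟩
    apply kumChar_mul_of_fix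
    exact (IntermediateField.mem_fixingSubgroup_iff _ s).1 hs _
      (IntermediateField.mem_adjoin_simple_self K _)
  · rintro ⟨x, hx, hxy⟩
    have hxy' : ∀ g h : Ω ≃ₐ[K] Ω, x h - x (g * h) + x g = c g * kumChar hζ α hα h := by
      intro g h
      have := congrFun hxy (g, h)
      exact this
    apply Hlc2π_symb_ne_zero_of_not_norm F χ hχF τ hτ (a : K) ha α hαa
    rw [Hlc2π_eq_zero_iff]
    refine ⟨fun g => toU K Ω (zpw (zU hζ) (x g)), ?_, ?_⟩
    · obtain ⟨U, hU, hUx⟩ := hx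
      exact ⟨U, hU, fun g s hs => by beta_reduce; rw [hUx g s hs]⟩
    · funext ⟨g, h⟩
      have e1 : (d₁₂ (unitsRep K Ω)).hom (fun g => toU K Ω (zpw (zU hζ) (x g))) (g, h) =
          toU K Ω (zpw (zU hζ) (x h) / zpw (zU hζ) (x (g * h)) * zpw (zU hζ) (x g)) := by
        show toU K Ω (Units.map (g : Ω →* Ω) (zpw (zU hζ) (x h))) - toU K Ω (zpw (zU hζ) (x (g * h)))
          + toU K Ω (zpw (zU hζ) (x g)) = _
        rw [map_zpw]
        rfl
      have e2 : symb (unitsRep K Ω) χ.ker (isGen_of_char χ τ hτ) (toU K Ω α) (g, h) =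
          toU K Ω ((zpw (zU hζ) (kumChar hζ α hα h)) ^ (c g).val) := by
        show chi χ.ker (isGen_of_char χ τ hτ) g •
          toU K Ω (Units.map (g : Ω →* Ω) (Units.map (h : Ω →* Ω) α / α)) = _
        rw [chi_eq_val χ τ hτ, ← zpw_kumChar hζ α hα h, map_zpw]
        rfl
      rw [e1]
      symm
      show symb (unitsRep K Ω) χ.ker (isGen_of_char χ τ hτ) (toU K Ω α) (g, h) = _
      rw [e2, ← zpw_mul (zU_pow hζ)]
      congr 1
      have h3 : x h + x g = kumChar hζ α hα h * c g + x (g * h) := by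
        have := hxy' g h
        linear_combination this
      have h4 := congrArg (zpw (zU (Ω := Ω) hζ)) h3
      rw [zpw_add (zU_pow hζ), zpw_add (zU_pow hζ)] at h4
      rw [div_mul_eq_mul_div, eq_div_iff_mul_eq', ← h4]

end Main

end Fermat.Agent.GC.Local.Hilbert
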