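/-
GATE-C / C3-HILBERT (helper61): low-degree dictionary for the cup product `HlcCup` on
level-constant cohomology: bidegrees `(1,1)`, `(0,2)`, `(2,0)` in plain-function form
(`Hlc1π`, `Hlc2π`, `Hlc0Equiv` of `GC/Prof/Low.lean`).
-/
import Mathlib
import Fermat.Agent.GC.Prof.CupLC
import Fermat.Agent.GC.Prof.Low

set_option autoImplicit false

namespace Fermat.Agent.GC.Local.Hilbert

open CategoryTheory groupCohomology Rep Fermat.Agent.GC.Prof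
open Fermat.Agent.GC.Prof.Cup (Equivariant)
open Fermat.Agent.GC.Prof.CupN

universe u

section Seq

variable {G : Type*} [Group G]

theorem seg_ext_two_fst (g h : G) : seg (ext ![g, h]) 0 1 = fun _ => g := by
  funext t
  have ht : t = 0 := Subsingleton.elim _ _
  subst ht
  simp [seg, ext]

theorem seg_ext_two_snd (g h : G) : seg (ext ![g, h]) 1 1 = fun _ => h := by
  funext t
  have ht : t = 0 := Subsingleton.elim _ _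
  subst ht
  simp [seg, ext]

theorem pr_ext_two_one (g h : G) : pr (ext ![g, h]) 0 1 = g := by
  rw [pr_succ, pr_zero, one_mul]
  simp [ext]

theorem pr_ext_two_two (g h : G) : pr (ext ![g, h]) 0 2 = g * h := by
  rw [pr_succ, pr_ext_two_one]
  simp [ext]

theorem seg_ext_two_all (g h : G) : seg (ext ![g, h]) 0 2 = ![g, h] := seg_ext _

end Seq

variable {k G : Type u} [CommRing k] [Group G] (𝒰 : LevelSystem G)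
variable {M N P : Rep.{u} k G} [IsDiscrete 𝒰 M] [IsDiscrete 𝒰 N] [IsDiscrete 𝒰 P]
  (B : M →ₗ[k] N →ₗ[k] P)

/-- the `(1,1)` cup product in plain-function form. -/
def cupFn₁₁ (a : G → M) (b : G → N) : G × G → P :=
  fun x => B (a x.1) (N.ρ x.1 (b x.2))

/-- the `(0,2)` cup product in plain-function form. -/
def cupFn₀₂ (m : M) (z : G × G → N) : G × G → P :=
  fun x => B m (z x)

/-- the `(2,0)` cup product in plain-function form. -/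
def cupFn₂₀ (z : G × G → M) (n : N) : G × G → P :=
  fun x => B (z x) (N.ρ (x.1 * x.2) n)

omit [IsDiscrete 𝒰 M] [IsDiscrete 𝒰 P] in
theorem lcEquiv₂_lcCup_one_one (a : lcSub 𝒰 M 1) (b : lcSub 𝒰 N 1) :
    (lcEquiv₂ 𝒰 P (lcCup 𝒰 B (rfl : 1 + 1 = 2) a b) : G × G → P) =
      cupFn₁₁ B (lcEquiv₁ 𝒰 M a : G → M) (lcEquiv₁ 𝒰 N b : G → N) := by
  funext ⟨g, h⟩
  rw [lcEquiv₂_apply, lcCup_coe, CupN.cupC_apply]
  show cupF B N.ρ 1 1 a.1 b.1 ![g, h] = _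
  unfold cupF cupFn₁₁
  rw [seg_ext_two_fst, seg_ext_two_snd, pr_ext_two_one]
  rfl

omit [IsDiscrete 𝒰 M] [IsDiscrete 𝒰 P] in
theorem lcEquiv₂_lcCup_zero_two (a : lcSub 𝒰 M 0) (b : lcSub 𝒰 N 2) :
    (lcEquiv₂ 𝒰 P (lcCup 𝒰 B (rfl : 0 + 2 = 2) a b) : G × G → P) =
      cupFn₀₂ B (lcEquiv₀ 𝒰 M a) (lcEquiv₂ 𝒰 N b : G × G → N) := by
  funext ⟨g, h⟩
  rw [lcEquiv₂_apply, lcCup_coe, CupN.cupC_apply]
  rw [cupF_apply]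
  rw [pr_zero, map_one, Module.End.one_apply, lcEquiv₀_apply]
  unfold cupFn₀₂
  rw [lcEquiv₂_apply]
  have h1 : (fun t : Fin 0 => (![g, h] ∘ Fin.cast (rfl : 0 + 2 = 2)) (Fin.castAdd 2 t)) = default :=
    Subsingleton.elim _ _
  have h2 : (fun t : Fin 2 => (![g, h] ∘ Fin.cast (rfl : 0 + 2 = 2)) (Fin.natAdd 0 t)) =
      ![g, h] := by
    funext t
    fin_cases t <;> rfl
  rw [h1, h2]

omit [IsDiscrete 𝒰 M] [IsDiscrete 𝒰 P] in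
theorem lcEquiv₂_lcCup_two_zero (a : lcSub 𝒰 M 2) (b : lcSub 𝒰 N 0) :
    (lcEquiv₂ 𝒰 P (lcCup 𝒰 B (rfl : 2 + 0 = 2) a b) : G × G → P) =
      cupFn₂₀ B (lcEquiv₂ 𝒰 M a : G × G → M) (lcEquiv₀ 𝒰 N b) := by
  funext ⟨g, h⟩
  rw [lcEquiv₂_apply, lcCup_coe, CupN.cupC_apply]
  show cupF B N.ρ 2 0 a.1 b.1 ![g, h] = _
  unfold cupF cupFn₂₀
  rw [seg_ext_two_all, pr_ext_two_two, lcEquiv₂_apply, lcEquiv₀_apply]
  have h1 : seg (ext ![g, h]) 2 0 = default := Subsingleton.elim _ _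
  rw [h1]

/-! ### cohomology-level dictionary -/

section Classes

variable {B} (hB : Equivariant M.ρ N.ρ P.ρ B)

include hB in
theorem cupFn₁₁_mem (a : lcCocycles₁ 𝒰 M) (b : lcCocycles₁ 𝒰 N) :
    cupFn₁₁ B (a : G → M) (b : G → N) ∈ lcCocycles₂ 𝒰 P := by
  have h := (lcZEquiv₂ 𝒰 P ⟨lcCup 𝒰 B (rfl : 1 + 1 = 2) ((lcEquiv₁ 𝒰 M).symm ⟨a.1, a.2.2⟩)
    ((lcEquiv₁ 𝒰 N).symm ⟨b.1, b.2.2⟩),
    lcD_lcCup_eq_zero 𝒰 hB _ (lcD_lcEquiv₁_symm 𝒰 M a) (lcD_lcEquiv₁_symm 𝒰 N b)⟩).2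
  have e : ((lcZEquiv₂ 𝒰 P ⟨lcCup 𝒰 B (rfl : 1 + 1 = 2) ((lcEquiv₁ 𝒰 M).symm ⟨a.1, a.2.2⟩)
    ((lcEquiv₁ 𝒰 N).symm ⟨b.1, b.2.2⟩),
    lcD_lcCup_eq_zero 𝒰 hB _ (lcD_lcEquiv₁_symm 𝒰 M a) (lcD_lcEquiv₁_symm 𝒰 N b)⟩ :
      lcCocycles₂ 𝒰 P) : G × G → P) = cupFn₁₁ B (a : G → M) (b : G → N) := by
    show (lcEquiv₂ 𝒰 P (lcCup 𝒰 B (rfl : 1 + 1 = 2) _ _) : G × G → P) = _
    rw [lcEquiv₂_lcCup_one_one, LinearEquiv.apply_symm_apply, LinearEquiv.apply_symm_apply]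
  rw [← e]
  exact h

/-- **the `(1,1)` cup product on classes of level-constant cocycles, plain-function form.** -/
theorem HlcCup_one_one (a : lcCocycles₁ 𝒰 M) (b : lcCocycles₁ 𝒰 N) :
    HlcCup 𝒰 B hB (rfl : 1 + 1 = 2) (Hlc1π 𝒰 M a) (Hlc1π 𝒰 N b) =
      Hlc2π 𝒰 P ⟨cupFn₁₁ B (a : G → M) (b : G → N), cupFn₁₁_mem 𝒰 hB a b⟩ := by
  rw [Hlc1π_apply, Hlc1π_apply, HlcCup_mk, Hlc2π_apply]
  apply HlcMk_congr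
  apply (lcEquiv₂ 𝒰 P).injective
  apply Subtype.ext
  rw [lcEquiv₂_lcCup_one_one, LinearEquiv.apply_symm_apply, LinearEquiv.apply_symm_apply,
    LinearEquiv.apply_symm_apply]

omit [IsDiscrete 𝒰 N] [IsDiscrete 𝒰 P] in
theorem lcD_lcEquiv₀_symm (m : M.ρ.invariants) :
    lcD 𝒰 M 0 ((lcEquiv₀ 𝒰 M).symm m.1) = 0 :=
  (lcD_zero_eq_zero_iff 𝒰 M _).2 (by rw [LinearEquiv.apply_symm_apply]; exact m.2)

omit [IsDiscrete 𝒰 N] [IsDiscrete 𝒰 P] in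
theorem Hlc0Equiv_symm_eq (m : M.ρ.invariants) :
    (Hlc0Equiv 𝒰 M).symm m = HlcMk 𝒰 M ((lcEquiv₀ 𝒰 M).symm m.1) (lcD_lcEquiv₀_symm 𝒰 m) := rfl

include hB in
theorem cupFn₀₂_mem (m : M.ρ.invariants) (z : lcCocycles₂ 𝒰 N) :
    cupFn₀₂ B (m : M) (z : G × G → N) ∈ lcCocycles₂ 𝒰 P := by
  have h := (lcZEquiv₂ 𝒰 P ⟨lcCup 𝒰 B (rfl : 0 + 2 = 2) ((lcEquiv₀ 𝒰 M).symm m.1)
    ((lcEquiv₂ 𝒰 N).symm ⟨z.1, z.2.2⟩),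
    lcD_lcCup_eq_zero 𝒰 hB _ (lcD_lcEquiv₀_symm 𝒰 m) (lcD_lcEquiv₂_symm 𝒰 N z)⟩).2
  have e : ((lcZEquiv₂ 𝒰 P ⟨lcCup 𝒰 B (rfl : 0 + 2 = 2) ((lcEquiv₀ 𝒰 M).symm m.1)
    ((lcEquiv₂ 𝒰 N).symm ⟨z.1, z.2.2⟩),
    lcD_lcCup_eq_zero 𝒰 hB _ (lcD_lcEquiv₀_symm 𝒰 m) (lcD_lcEquiv₂_symm 𝒰 N z)⟩ :
      lcCocycles₂ 𝒰 P) : G × G → P) = cupFn₀₂ B (m : M) (z : G × G → N) := by
    show (lcEquiv₂ 𝒰 P (lcCup 𝒰 B (rfl : 0 + 2 = 2) _ _) : G × G → P) = _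
    rw [lcEquiv₂_lcCup_zero_two, LinearEquiv.apply_symm_apply, LinearEquiv.apply_symm_apply]
  rw [← e]
  exact h

/-- **the `(0,2)` cup product on classes, plain-function form.** -/
theorem HlcCup_zero_two (m : M.ρ.invariants) (z : lcCocycles₂ 𝒰 N) :
    HlcCup 𝒰 B hB (rfl : 0 + 2 = 2) ((Hlc0Equiv 𝒰 M).symm m) (Hlc2π 𝒰 N z) =
      Hlc2π 𝒰 P ⟨cupFn₀₂ B (m : M) (z : G × G → N), cupFn₀₂_mem 𝒰 hB m z⟩ := by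
  rw [Hlc0Equiv_symm_eq, Hlc2π_apply, HlcCup_mk, Hlc2π_apply]
  apply HlcMk_congr
  apply (lcEquiv₂ 𝒰 P).injective
  apply Subtype.ext
  rw [lcEquiv₂_lcCup_zero_two, LinearEquiv.apply_symm_apply, LinearEquiv.apply_symm_apply,
    LinearEquiv.apply_symm_apply]

include hB in
theorem cupFn₂₀_mem (z : lcCocycles₂ 𝒰 M) (n : N.ρ.invariants) :
    cupFn₂₀ B (z : G × G → M) (n : N) ∈ lcCocycles₂ 𝒰 P := by
  have h := (lcZEquiv₂ 𝒰 P ⟨lcCup 𝒰 B (rfl : 2 + 0 = 2) ((lcEquiv₂ 𝒰 M).symm ⟨z.1, z.2.2⟩)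
    ((lcEquiv₀ 𝒰 N).symm n.1),
    lcD_lcCup_eq_zero 𝒰 hB _ (lcD_lcEquiv₂_symm 𝒰 M z) (lcD_lcEquiv₀_symm 𝒰 n)⟩).2
  have e : ((lcZEquiv₂ 𝒰 P ⟨lcCup 𝒰 B (rfl : 2 + 0 = 2) ((lcEquiv₂ 𝒰 M).symm ⟨z.1, z.2.2⟩)
    ((lcEquiv₀ 𝒰 N).symm n.1),
    lcD_lcCup_eq_zero 𝒰 hB _ (lcD_lcEquiv₂_symm 𝒰 M z) (lcD_lcEquiv₀_symm 𝒰 n)⟩ :
      lcCocycles₂ 𝒰 P) : G × G → P) = cupFn₂₀ B (z : G × G → M) (n : N) := by
    show (lcEquiv₂ 𝒰 P (lcCup 𝒰 B (rfl : 2 + 0 = 2) _ _) : G × G → P) = _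
    rw [lcEquiv₂_lcCup_two_zero, LinearEquiv.apply_symm_apply, LinearEquiv.apply_symm_apply]
  rw [← e]
  exact h

/-- **the `(2,0)` cup product on classes, plain-function form.** -/
theorem HlcCup_two_zero (z : lcCocycles₂ 𝒰 M) (n : N.ρ.invariants) :
    HlcCup 𝒰 B hB (rfl : 2 + 0 = 2) (Hlc2π 𝒰 M z) ((Hlc0Equiv 𝒰 N).symm n) =
      Hlc2π 𝒰 P ⟨cupFn₂₀ B (z : G × G → M) (n : N), cupFn₂₀_mem 𝒰 hB z n⟩ := by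
  rw [Hlc0Equiv_symm_eq, Hlc2π_apply, HlcCup_mk, Hlc2π_apply]
  apply HlcMk_congr
  apply (lcEquiv₂ 𝒰 P).injective
  apply Subtype.ext
  rw [lcEquiv₂_lcCup_two_zero, LinearEquiv.apply_symm_apply, LinearEquiv.apply_symm_apply,
    LinearEquiv.apply_symm_apply]

end Classes

end Fermat.Agent.GC.Local.Hilbert
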