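/-
GATE-C / C3-HILBERT (helper61): local perfectness, abstract part.  For a group `G` with a level
system `𝒰` satisfying the cochain-level non-degeneracy property `CupNonDeg` (proved for
`Gal(Ω/K)`, `K` a `q`-adic field containing `μ_p`, in `NonDegTriv.lean`), the cup products
`Hlc^i(G,k) × Hlc^{2-i}(G,k) → Hlc²(G,P) → k` (`P` a one-dimensional module with trivial action,
`τ : Hlc² → k` injective / bijective) are perfect for `i = 0, 1, 2`.
-/
import Mathlib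
import Fermat.Agent.GC.Local.Hilbert.CupLow
import Fermat.Agent.GC.Prof.LowMap
import Fermat.Agent.GC.Prof.Prod

set_option autoImplicit false

namespace Fermat.Agent.GC.Local.Hilbert

open CategoryTheory groupCohomology Rep Fermat.Agent.GC.Prof
open Fermat.Agent.GC.Prof.Cup (Equivariant)

universe u

section Abs

variable {k G : Type u} [Field k] [Group G] (𝒰 : LevelSystem G)

/-- **Cochain-level left non-degeneracy of the cup product `H¹ × H¹ → H²`** with trivial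
coefficients `k`: for every nonzero level-constant character `c` there is a level-constant
character `ψ` such that `c ∪ ψ` is not the coboundary of a level-constant cochain. -/
def CupNonDeg (k : Type u) [Field k] {G : Type u} [Group G] (𝒰 : LevelSystem G) : Prop :=
  ∀ c : G → k, (∀ g h, c (g * h) = c g + c h) → IsLC₁ 𝒰 c → c ≠ 0 →
    ∃ ψ : G → k, (∀ g h, ψ (g * h) = ψ g + ψ h) ∧ IsLC₁ 𝒰 ψ ∧
      (fun x : G × G => c x.1 * ψ x.2) ∉ lcCoboundaries₂ 𝒰 (Rep.trivial k G k)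

variable (P : Rep.{u} k G)
  (B : (Rep.trivial k G k : Rep.{u} k G) →ₗ[k] (Rep.trivial k G k : Rep.{u} k G) →ₗ[k] P)

theorem equivariant_of_trivial (hP : ∀ (g : G) (x : P), P.ρ g x = x) :
    Equivariant (Rep.trivial k G k).ρ (Rep.trivial k G k).ρ P.ρ B := by
  intro g m n
  rw [hP]
  rfl

theorem bil_apply_eq (a b : k) : B a b = (a * b) • B (1 : k) (1 : k) := by
  have h : B a b = B (a • (1 : k)) (b • (1 : k)) := by
    rw [smul_eq_mul, mul_one, smul_eq_mul, mul_one]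
  rw [h, map_smul (B (a • (1 : k))), map_smul B, LinearMap.smul_apply, smul_smul, mul_comm]

/-! ### bidegree `(1,1)` -/

section OneOne

variable {𝒰} {P} [IsDiscrete 𝒰 P] [IsDiscrete 𝒰 (Rep.trivial k G k)] {B}

omit [IsDiscrete 𝒰 P] [IsDiscrete 𝒰 (Rep.trivial k G k)] in
/-- an additive function is a `1`-cocycle of the trivial module. -/
theorem mem_cocycles₁_trivial_iff (c : G → k) :
    c ∈ cocycles₁ (Rep.trivial k G k) ↔ ∀ g h, c (g * h) = c g + c h := by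
  rw [mem_cocycles₁_iff]
  constructor
  · intro h g g'
    rw [h g g', add_comm]
    rfl
  · intro h g g'
    rw [h g g', add_comm]
    rfl

/-- left non-degeneracy on classes. -/
theorem exists_cup_one_one_ne_zero (hND : CupNonDeg k 𝒰) (hP : ∀ (g : G) (x : P), P.ρ g x = x)
    (hB : Equivariant (Rep.trivial k G k).ρ (Rep.trivial k G k).ρ P.ρ B)
    (hB1 : B (1 : k) (1 : k) ≠ 0) (x : Hlc 𝒰 (Rep.trivial k G k) 1) (hx : x ≠ 0) :
    ∃ y : Hlc 𝒰 (Rep.trivial k G k) 1, HlcCup 𝒰 B hB (rfl : 1 + 1 = 2) x y ≠ 0 := by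
  obtain ⟨c, rfl⟩ := Hlc1π_surjective 𝒰 (Rep.trivial k G k) x
  have hcadd : ∀ g h, (c : G → k) (g * h) = (c : G → k) g + (c : G → k) h :=
    (mem_cocycles₁_trivial_iff (c : G → k)).1 c.2.1
  have hcne : (c : G → k) ≠ 0 := by
    intro h0
    apply hx
    have : c = 0 := Subtype.ext h0
    rw [this, map_zero]
  obtain ⟨ψ, hψadd, hψlc, hnot⟩ := hND (c : G → k) hcadd c.2.2 hcne
  have hψmem : ψ ∈ lcCocycles₁ 𝒰 (Rep.trivial k G k) :=
    ⟨(mem_cocycles₁_trivial_iff ψ).2 hψadd, hψlc⟩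
  refine ⟨Hlc1π 𝒰 (Rep.trivial k G k) ⟨ψ, hψmem⟩, ?_⟩
  rw [HlcCup_one_one 𝒰 hB c ⟨ψ, hψmem⟩]
  intro h0
  rw [Hlc2π_eq_zero_iff, mem_lcCoboundaries₂_iff] at h0
  obtain ⟨y, hy, hdy⟩ := h0
  -- a functional with `φ (B 1 1) = 1`
  obtain ⟨φ, hφ⟩ : ∃ φ : P →ₗ[k] k, φ (B (1 : k) (1 : k)) = 1 :=
    Module.Projective.exists_dual_eq_one k hB1
  apply hnot
  rw [mem_lcCoboundaries₂_iff]
  refine ⟨fun g => φ (y g), hy.comp φ, ?_⟩
  funext ⟨g, h⟩
  have h1 : P.ρ g (y h) - y (g * h) + y g = cupFn₁₁ B (c : G → k) ψ (g, h) := by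
    have := congrFun hdy (g, h)
    rw [d₁₂_hom_apply] at this
    exact this
  have h2 : cupFn₁₁ B (c : G → k) ψ (g, h) = ((c : G → k) g * ψ h) • B (1 : k) (1 : k) := by
    show B ((c : G → k) g) ((Rep.trivial k G k).ρ g (ψ h)) = _
    rw [← bil_apply_eq]
    rfl
  rw [h2, hP] at h1
  rw [d₁₂_hom_apply]
  show φ (y h) - φ (y (g * h)) + φ (y g) = _
  rw [← map_sub, ← map_add, h1, map_smul, hφ, smul_eq_mul, mul_one]

/-- **perfectness of `Hlc¹(G,k) × Hlc¹(G,k) → Hlc²(G,P) → k`.** -/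
theorem bijective_cup_one_one (hND : CupNonDeg k 𝒰) (hP : ∀ (g : G) (x : P), P.ρ g x = x)
    (hB : Equivariant (Rep.trivial k G k).ρ (Rep.trivial k G k).ρ P.ρ B)
    (hB1 : B (1 : k) (1 : k) ≠ 0) (τ : Hlc 𝒰 P 2 →ₗ[k] k) (hτ : Function.Injective τ)
    [FiniteDimensional k (Hlc 𝒰 (Rep.trivial k G k) 1)] (h : 1 + 1 = 2) :
    Function.Bijective ((HlcCup 𝒰 B hB h).compr₂ τ) := by
  have hinj : Function.Injective ((HlcCup 𝒰 B hB h).compr₂ τ) := by
    rw [injective_iff_map_eq_zero]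
    intro x hx
    by_contra hx0
    obtain ⟨y, hy⟩ := exists_cup_one_one_ne_zero hND hP hB hB1 x hx0
    apply hy
    apply hτ
    rw [map_zero]
    have := LinearMap.congr_fun hx y
    exact this
  refine ⟨hinj, ?_⟩
  rw [← LinearMap.injective_iff_surjective_of_finrank_eq_finrank]
  · exact hinj
  · exact (Subspace.dual_finrank_eq (K := k) (V := Hlc 𝒰 (Rep.trivial k G k) 1)).symm

/-- the flipped form. -/
theorem bijective_cup_one_one_flip (hND : CupNonDeg k 𝒰) (hP : ∀ (g : G) (x : P), P.ρ g x = x)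
    (hB : Equivariant (Rep.trivial k G k).ρ (Rep.trivial k G k).ρ P.ρ B)
    (hB1 : B (1 : k) (1 : k) ≠ 0) (τ : Hlc 𝒰 P 2 →ₗ[k] k) (hτ : Function.Injective τ)
    [FiniteDimensional k (Hlc 𝒰 (Rep.trivial k G k) 1)] (h : 1 + 1 = 2) :
    Function.Bijective ((HlcCup 𝒰 B hB h).compr₂ τ).flip :=
  (LinearMap.IsPerfPair.of_bijective _
    (bijective_cup_one_one hND hP hB hB1 τ hτ h)).bijective_right

end OneOne

/-! ### bidegrees `(0,2)` and `(2,0)` -/

section LinAlg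

variable {V W : Type*} [AddCommGroup V] [Module k V] [AddCommGroup W] [Module k W]

omit [Group G] in
/-- a pairing of two lines which is the product of two coordinates is perfect. -/
theorem bijective_of_eq_mul (eV : V ≃ₗ[k] k) (eW : W ≃ₗ[k] k) (lam : V →ₗ[k] W →ₗ[k] k)
    (h : ∀ v w, lam v w = eV v * eW w) : Function.Bijective lam := by
  constructor
  · rw [injective_iff_map_eq_zero]
    intro v hv
    have h1 := h v (eW.symm 1)
    rw [hv, LinearMap.zero_apply, LinearEquiv.apply_symm_apply, mul_one] at h1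
    exact (LinearEquiv.map_eq_zero_iff eV).1 h1.symm
  · intro φ
    refine ⟨eV.symm (φ (eW.symm 1)), ?_⟩
    ext w
    rw [h, LinearEquiv.apply_symm_apply]
    have : w = eW w • eW.symm 1 := by
      rw [← map_smul, smul_eq_mul, mul_one, LinearEquiv.symm_apply_apply]
    conv_rhs => rw [this, map_smul, smul_eq_mul, mul_comm]

end LinAlg

section ZeroTwo

variable {𝒰} {P} [IsDiscrete 𝒰 P] [IsDiscrete 𝒰 (Rep.trivial k G k)] {B}

omit [IsDiscrete 𝒰 P] [IsDiscrete 𝒰 (Rep.trivial k G k)] in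
theorem mem_invariants_trivial (m : k) : m ∈ (Rep.trivial k G k).ρ.invariants :=
  fun _ => rfl

variable (𝒰) in
/-- `Hlc⁰(G,k) ≃ k`. -/
noncomputable def hlcZeroTrivEquiv : Hlc 𝒰 (Rep.trivial k G k) 0 ≃ₗ[k] k :=
  (Hlc0Equiv 𝒰 (Rep.trivial k G k)).trans
    (LinearEquiv.ofBijective ((Rep.trivial k G k).ρ.invariants.subtype)
      ⟨Subtype.val_injective, fun m => ⟨⟨m, mem_invariants_trivial m⟩, rfl⟩⟩)

theorem hlcZeroTrivEquiv_symm_apply (m : k) :
    (hlcZeroTrivEquiv 𝒰).symm m =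
      (Hlc0Equiv 𝒰 (Rep.trivial k G k)).symm ⟨m, mem_invariants_trivial m⟩ := by
  apply (hlcZeroTrivEquiv 𝒰 (k := k)).injective
  rw [LinearEquiv.apply_symm_apply]
  symm
  show ((Hlc0Equiv 𝒰 (Rep.trivial k G k)) ((Hlc0Equiv 𝒰 (Rep.trivial k G k)).symm
    ⟨m, mem_invariants_trivial m⟩)).1 = m
  rw [LinearEquiv.apply_symm_apply]

omit [IsDiscrete 𝒰 P] [IsDiscrete 𝒰 (Rep.trivial k G k)] in
/-- the isomorphism `k ≅ P` of representations given by `B 1`. -/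
noncomputable def bilIso (hP : ∀ (g : G) (x : P), P.ρ g x = x)
    (hB1 : Function.Bijective (B (1 : k))) : Rep.trivial k G k ≅ P :=
  Rep.mkIso (Representation.Equiv.mk (LinearEquiv.ofBijective (B (1 : k)) hB1) (fun g => by
    ext
    show B 1 1 = P.ρ g (B 1 1)
    rw [hP]))

omit [IsDiscrete 𝒰 P] [IsDiscrete 𝒰 (Rep.trivial k G k)] in
theorem bilIso_hom_apply (hP : ∀ (g : G) (x : P), P.ρ g x = x)
    (hB1 : Function.Bijective (B (1 : k))) (a : k) : (bilIso hP hB1).hom.hom a = B 1 a := rfl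

variable (𝒰) in
/-- `Hlc²(G,k) ≃ k` through `B 1` and `τ`. -/
noncomputable def hlcTwoEquiv (hP : ∀ (g : G) (x : P), P.ρ g x = x)
    (hB1 : Function.Bijective (B (1 : k))) (τ : Hlc 𝒰 P 2 →ₗ[k] k) (hτ : Function.Bijective τ) :
    Hlc 𝒰 (Rep.trivial k G k) 2 ≃ₗ[k] k :=
  (HlcIso 𝒰 (bilIso hP hB1) 2).toLinearEquiv.trans (LinearEquiv.ofBijective τ hτ)

theorem hlcTwoEquiv_apply (hP : ∀ (g : G) (x : P), P.ρ g x = x)
    (hB1 : Function.Bijective (B (1 : k))) (τ : Hlc 𝒰 P 2 →ₗ[k] k) (hτ : Function.Bijective τ)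
    (w : Hlc 𝒰 (Rep.trivial k G k) 2) :
    hlcTwoEquiv 𝒰 hP hB1 τ hτ w = τ (HlcMap 𝒰 (bilIso hP hB1).hom 2 w) := rfl

theorem cup_zero_two_eq (hP : ∀ (g : G) (x : P), P.ρ g x = x)
    (hB : Equivariant (Rep.trivial k G k).ρ (Rep.trivial k G k).ρ P.ρ B)
    (hB1 : Function.Bijective (B (1 : k)))
    (v : Hlc 𝒰 (Rep.trivial k G k) 0) (w : Hlc 𝒰 (Rep.trivial k G k) 2) :
    HlcCup 𝒰 B hB (rfl : 0 + 2 = 2) v w =
      hlcZeroTrivEquiv 𝒰 v • HlcMap 𝒰 (bilIso hP hB1).hom 2 w := by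
  obtain ⟨m, rfl⟩ := (hlcZeroTrivEquiv 𝒰 (k := k) (G := G)).symm.surjective v
  obtain ⟨z, rfl⟩ := Hlc2π_surjective 𝒰 (Rep.trivial k G k) w
  rw [LinearEquiv.apply_symm_apply, hlcZeroTrivEquiv_symm_apply, HlcCup_zero_two, HlcMap_Hlc2π,
    ← map_smul]
  congr 1
  apply Subtype.ext
  funext x
  show B m ((z : G × G → k) x) = m • B 1 ((z : G × G → k) x)
  have e2 := bil_apply_eq P B 1 ((z : G × G → k) x)
  rw [bil_apply_eq P B m ((z : G × G → k) x), e2, smul_smul, one_mul]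

theorem cup_two_zero_eq (hP : ∀ (g : G) (x : P), P.ρ g x = x)
    (hB : Equivariant (Rep.trivial k G k).ρ (Rep.trivial k G k).ρ P.ρ B)
    (hB1 : Function.Bijective (B (1 : k)))
    (w : Hlc 𝒰 (Rep.trivial k G k) 2) (v : Hlc 𝒰 (Rep.trivial k G k) 0) :
    HlcCup 𝒰 B hB (rfl : 2 + 0 = 2) w v =
      hlcZeroTrivEquiv 𝒰 v • HlcMap 𝒰 (bilIso hP hB1).hom 2 w := by
  obtain ⟨m, rfl⟩ := (hlcZeroTrivEquiv 𝒰 (k := k) (G := G)).symm.surjective v
  obtain ⟨z, rfl⟩ := Hlc2π_surjective 𝒰 (Rep.trivial k G k) w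
  rw [LinearEquiv.apply_symm_apply, hlcZeroTrivEquiv_symm_apply, HlcCup_two_zero, HlcMap_Hlc2π,
    ← map_smul]
  congr 1
  apply Subtype.ext
  funext x
  show B ((z : G × G → k) x) m = m • B 1 ((z : G × G → k) x)
  have e2 := bil_apply_eq P B 1 ((z : G × G → k) x)
  rw [bil_apply_eq P B ((z : G × G → k) x) m, e2, smul_smul, one_mul, mul_comm]

/-- **perfectness of `Hlc⁰(G,k) × Hlc²(G,k) → Hlc²(G,P) → k`.** -/
theorem bijective_cup_zero_two (hP : ∀ (g : G) (x : P), P.ρ g x = x)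
    (hB : Equivariant (Rep.trivial k G k).ρ (Rep.trivial k G k).ρ P.ρ B)
    (hB1 : Function.Bijective (B (1 : k))) (τ : Hlc 𝒰 P 2 →ₗ[k] k) (hτ : Function.Bijective τ)
    (h : 0 + 2 = 2) : Function.Bijective ((HlcCup 𝒰 B hB h).compr₂ τ) := by
  refine bijective_of_eq_mul (hlcZeroTrivEquiv 𝒰) (hlcTwoEquiv 𝒰 hP hB1 τ hτ) _ fun v w => ?_
  show τ (HlcCup 𝒰 B hB (rfl : 0 + 2 = 2) v w) = _
  rw [cup_zero_two_eq hP hB hB1, map_smul, smul_eq_mul, hlcTwoEquiv_apply]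

/-- **perfectness of `Hlc²(G,k) × Hlc⁰(G,k) → Hlc²(G,P) → k`.** -/
theorem bijective_cup_two_zero (hP : ∀ (g : G) (x : P), P.ρ g x = x)
    (hB : Equivariant (Rep.trivial k G k).ρ (Rep.trivial k G k).ρ P.ρ B)
    (hB1 : Function.Bijective (B (1 : k))) (τ : Hlc 𝒰 P 2 →ₗ[k] k) (hτ : Function.Bijective τ)
    (h : 2 + 0 = 2) : Function.Bijective ((HlcCup 𝒰 B hB h).compr₂ τ) := by
  refine bijective_of_eq_mul (hlcTwoEquiv 𝒰 hP hB1 τ hτ) (hlcZeroTrivEquiv 𝒰) _ fun w v => ?_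
  show τ (HlcCup 𝒰 B hB (rfl : 2 + 0 = 2) w v) = _
  rw [cup_two_zero_eq hP hB hB1, map_smul, smul_eq_mul, hlcTwoEquiv_apply, mul_comm]

end ZeroTwo

end Abs

end Fermat.Agent.GC.Local.Hilbert
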