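/-
GATE-C / C3-HILBERT (helper61): local perfectness (N-c), concrete part.  The cochain-level
non-degeneracy property `CupNonDeg (ZMod p)` holds for
* `(Gal(Ω/K), galLevels K Ω)`, `K` finite over `ℚ_q` containing `μ_p`, `Ω` algebraically closed;
* `(E.fixingSubgroup, levelSub E)` for `E ⊆ Ω` finite over `ℚ_q` containing `μ_p`;
* `(locGroup q K s, levelLoc q K s)` (helper69's local groups of a number field `K`).
Together with `PerfectAbs.lean` this gives the perfectness of the local cup products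
`Hlc^i × Hlc^{2-i} → Hlc² → 𝔽_p` with trivial `𝔽_p`-coefficients in bidegrees `(1,1), (0,2), (2,0)`.
-/
import Mathlib
import Fermat.Agent.GC.Local.Hilbert.PerfectAbs
import Fermat.Agent.GC.Local.Hilbert.NonDegTriv
import Fermat.Agent.GC.Places.Levels

set_option autoImplicit false

namespace Fermat.Agent.GC.Local.Hilbert

open CategoryTheory groupCohomology Rep Fermat.Agent.GC.Prof
open Fermat.Agent.GC.Local.Abs Fermat.Agent.GC.Local.KR Fermat.Agent.GC.Places
open scoped Padic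

universe u

section Transport

variable {k G G' : Type u} [Field k] [Group G] [Group G'] {𝒰 : LevelSystem G}
  {𝒰' : LevelSystem G'}

/-- `CupNonDeg` is invariant under bicontinuous group isomorphisms. -/
theorem CupNonDeg.of_equiv (e : G' ≃* G) (he : IsContHom 𝒰' 𝒰 e.toMonoidHom)
    (he' : IsContHom 𝒰 𝒰' e.symm.toMonoidHom) (h : CupNonDeg k 𝒰) : CupNonDeg k 𝒰' := by
  intro c' hc' hlc' hne'
  have hc : ∀ g h : G, c' (e.symm (g * h)) = c' (e.symm g) + c' (e.symm h) := by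
    intro g h
    rw [map_mul, hc']
  have hlc : IsLC₁ 𝒰 (fun g : G => c' (e.symm g)) := by
    obtain ⟨U', hU', hU'c⟩ := hlc'
    obtain ⟨U, hU, hUU'⟩ := he' U' hU'
    refine ⟨U, hU, fun g s hs => ?_⟩
    show c' (e.symm (g * s)) = c' (e.symm g)
    rw [map_mul]
    exact hU'c _ _ (hUU' hs)
  have hne : (fun g : G => c' (e.symm g)) ≠ 0 := by
    intro h0
    apply hne'
    funext g'
    have := congrFun h0 (e g')
    simpa using this
  obtain ⟨ψ, hψadd, hψlc, hnot⟩ := h _ hc hlc hne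
  refine ⟨fun g' => ψ (e g'), fun g h => by
    show ψ (e (g * h)) = ψ (e g) + ψ (e h)
    rw [map_mul, hψadd], ?_, ?_⟩
  · obtain ⟨U, hU, hUψ⟩ := hψlc
    obtain ⟨U', hU', hU'U⟩ := he U hU
    refine ⟨U', hU', fun g s hs => ?_⟩
    show ψ (e (g * s)) = ψ (e g)
    rw [map_mul]
    exact hUψ _ _ (hU'U hs)
  · intro hmem
    apply hnot
    obtain ⟨x', hx', hd⟩ := hmem
    refine ⟨fun g => x' (e.symm g), ?_, ?_⟩
    · obtain ⟨U', hU', hU'x⟩ := hx'
      obtain ⟨U, hU, hUU'⟩ := he' U' hU'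
      refine ⟨U, hU, fun g s hs => ?_⟩
      show x' (e.symm (g * s)) = x' (e.symm g)
      rw [map_mul]
      exact hU'x _ _ (hUU' hs)
    · funext ⟨g, h⟩
      have h1 := congrFun hd (e.symm g, e.symm h)
      rw [d₁₂_hom_apply] at h1 ⊢
      show x' (e.symm h) - x' (e.symm (g * h)) + x' (e.symm g) = c' (e.symm g) * ψ h
      rw [map_mul]
      have h2 : x' (e.symm h) - x' (e.symm g * e.symm h) + x' (e.symm g) =
          c' (e.symm g) * ψ (e (e.symm h)) := h1
      rw [h2, MulEquiv.apply_symm_apply]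

end Transport

section Concrete

variable (q : ℕ) [Fact q.Prime] {p : ℕ} [Fact p.Prime]

/-- `CupNonDeg` for the absolute Galois group of a `q`-adic field containing `μ_p`. -/
theorem cupNonDeg_galLevels {K Ω : Type} [Field K] [Field Ω] [Algebra ℚ_[q] K]
    [Algebra ℚ_[q] Ω] [Algebra K Ω] [IsScalarTower ℚ_[q] K Ω] [FiniteDimensional ℚ_[q] K]
    [IsGalois K Ω] [IsAlgClosed Ω] {ζ : K} (hζ : IsPrimitiveRoot ζ p) :
    CupNonDeg (ZMod p) (galLevels K Ω) :=
  fun c hc hlc hne => exists_cup_not_coboundary q hζ c hc hlc hne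

/-- `CupNonDeg` for `Gal(Ω/E)` in `fixingSubgroup` form. -/
theorem cupNonDeg_levelSub {Ω : Type} [Field Ω] [Algebra ℚ_[q] Ω] [IsGalois ℚ_[q] Ω]
    [IsAlgClosed Ω] (E : IntermediateField ℚ_[q] Ω) [FiniteDimensional ℚ_[q] E] {ζ : E}
    (hζ : IsPrimitiveRoot ζ p) : CupNonDeg (ZMod p) (levelSub E) :=
  CupNonDeg.of_equiv (IntermediateField.fixingSubgroupEquiv E)
    (isContHom_fixingSubgroupEquiv E) (isContHom_fixingSubgroupEquiv_symm E)
    (cupNonDeg_galLevels q hζ)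

/-- `CupNonDeg` for the local groups of a number field at the places above `q`. -/
theorem cupNonDeg_levelLoc (K : IntermediateField ℚ (AlgebraicClosure ℚ)) [FiniteDimensional ℚ K]
    (s : AlgebraicClosure ℚ ≃ₐ[ℚ] AlgebraicClosure ℚ) {ζ : locField q K s}
    (hζ : IsPrimitiveRoot ζ p) : CupNonDeg (ZMod p) (levelLoc q K s) :=
  cupNonDeg_levelSub q (locField q K s) hζ

end Concrete

/-! ### The instantiated statements for `P = k`, `B = ` multiplication -/

section Mul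

open Fermat.Agent.GC.Prof.Cup (Equivariant)

variable {G : Type} [Group G] (𝒰 : LevelSystem G) {p : ℕ} [Fact p.Prime]

/-- multiplication `𝔽_p × 𝔽_p → 𝔽_p` as a pairing of trivial representations. -/
def mulT (p : ℕ) (G : Type) [Group G] :
    (Rep.trivial (ZMod p) G (ZMod p) : Rep (ZMod p) G) →ₗ[ZMod p]
      (Rep.trivial (ZMod p) G (ZMod p) : Rep (ZMod p) G) →ₗ[ZMod p]
        (Rep.trivial (ZMod p) G (ZMod p) : Rep (ZMod p) G) :=
  LinearMap.mul (ZMod p) (ZMod p)

theorem mulT_apply (a b : ZMod p) : mulT p G a b = a * b := rfl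

theorem mulT_equivariant :
    Equivariant (Rep.trivial (ZMod p) G (ZMod p)).ρ (Rep.trivial (ZMod p) G (ZMod p)).ρ
      (Rep.trivial (ZMod p) G (ZMod p)).ρ (mulT p G) :=
  fun _ _ _ => rfl

/-- `(1,1)`: `Hlc¹(G,𝔽_p) × Hlc¹(G,𝔽_p) → Hlc²(G,𝔽_p) → 𝔽_p` is perfect. -/
theorem perfect_one_one (hND : CupNonDeg (ZMod p) 𝒰)
    (τ : Hlc 𝒰 (Rep.trivial (ZMod p) G (ZMod p)) 2 →ₗ[ZMod p] ZMod p)
    (hτ : Function.Injective τ)
    [FiniteDimensional (ZMod p) (Hlc 𝒰 (Rep.trivial (ZMod p) G (ZMod p)) 1)] :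
    Function.Bijective ((HlcCup 𝒰 (mulT p G) mulT_equivariant (rfl : 1 + 1 = 2)).compr₂ τ) ∧
      Function.Bijective
        ((HlcCup 𝒰 (mulT p G) mulT_equivariant (rfl : 1 + 1 = 2)).compr₂ τ).flip :=
  ⟨bijective_cup_one_one hND (fun _ _ => rfl) mulT_equivariant
      (by rw [mulT_apply, one_mul]; exact one_ne_zero) τ hτ rfl,
    bijective_cup_one_one_flip hND (fun _ _ => rfl) mulT_equivariant
      (by rw [mulT_apply, one_mul]; exact one_ne_zero) τ hτ rfl⟩

theorem mulT_one_bijective : Function.Bijective (mulT p G (1 : ZMod p)) := by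
  have : (mulT p G (1 : ZMod p) : ZMod p → ZMod p) = id := by
    funext a
    rw [mulT_apply, one_mul]
    rfl
  rw [this]
  exact Function.bijective_id

/-- `(0,2)`: `Hlc⁰(G,𝔽_p) × Hlc²(G,𝔽_p) → Hlc²(G,𝔽_p) → 𝔽_p` is perfect. -/
theorem perfect_zero_two
    (τ : Hlc 𝒰 (Rep.trivial (ZMod p) G (ZMod p)) 2 →ₗ[ZMod p] ZMod p)
    (hτ : Function.Bijective τ) :
    Function.Bijective ((HlcCup 𝒰 (mulT p G) mulT_equivariant (rfl : 0 + 2 = 2)).compr₂ τ) :=
  bijective_cup_zero_two (fun _ _ => rfl) mulT_equivariant mulT_one_bijective τ hτ rfl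

/-- `(2,0)`: `Hlc²(G,𝔽_p) × Hlc⁰(G,𝔽_p) → Hlc²(G,𝔽_p) → 𝔽_p` is perfect. -/
theorem perfect_two_zero
    (τ : Hlc 𝒰 (Rep.trivial (ZMod p) G (ZMod p)) 2 →ₗ[ZMod p] ZMod p)
    (hτ : Function.Bijective τ) :
    Function.Bijective ((HlcCup 𝒰 (mulT p G) mulT_equivariant (rfl : 2 + 0 = 2)).compr₂ τ) :=
  bijective_cup_two_zero (fun _ _ => rfl) mulT_equivariant mulT_one_bijective τ hτ rfl

end Mul

end Fermat.Agent.GC.Local.Hilbert
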