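/-
GATE-C / C3-HILBERT (helper61): local perfectness in the exact shape consumed by BASE-INST:
for helper20's Mackey data `(t, Dt, φ)` and the twisted multiplication pairing
`mackeyB (mulS H χ) t Dt φ : k × k → k(χ)|_{Dt}` (with `χ|_H = 1`), the pairings
`(b, c) ↦ τ (b ∪ c)` on `Hlc^i(Dt, k) × Hlc^{2-i}(Dt, k)` are perfect.
-/
import Mathlib
import Fermat.Agent.GC.Local.Hilbert.PerfectAbs
import Fermat.Agent.GC.Prof.MackeyCup
import Fermat.Agent.GC.Prof.CoindTrivDual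

set_option autoImplicit false

namespace Fermat.Agent.GC.Local.Hilbert

open CategoryTheory groupCohomology Rep Fermat.Agent.GC.Prof
open Fermat.Agent.GC.Prof.Cup (Equivariant)

universe u

section Mackey

variable {k G D : Type u} [Field k] [Group G] [Group D] {r : D →* G} (H : Subgroup G)
  (χ : G →* kˣ) (hχ : ∀ s : H, χ (s : G) = 1)
  (t : G) (Dt : Subgroup D) (φ : Dt →* H)
  (hφ : ∀ d : Dt, ((φ d : H) : G) * t = t * r d)

include hχ hφ in
/-- `k(χ)` restricted to `Dt` has trivial action (as `χ` is trivial on `H ⊇ t (r Dt) t⁻¹`). -/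
theorem res_chiRep_trivial (d : Dt) (x : (Rep.res Dt.subtype (Rep.res r (chiRep χ)) : Rep k Dt)) :
    (Rep.res Dt.subtype (Rep.res r (chiRep χ))).ρ d x = x := by
  show (χ (r (d : D)) : k) * x = x
  have h1 : r (d : D) = t⁻¹ * ((φ d : H) : G) * t := by
    rw [mul_assoc, hφ d, ← mul_assoc, inv_mul_cancel, one_mul]
  have h2 : χ (r (d : D)) = 1 := by
    rw [h1, map_mul, map_mul, hχ, mul_one, ← map_mul, inv_mul_cancel, map_one]
  rw [h2, Units.val_one, one_mul]

theorem mackeyB_mulS_one_bijective :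
    Function.Bijective (mackeyB (r := r) (mulS H χ) t Dt φ (1 : k)) := by
  have h : ∀ a : k, mackeyB (r := r) (mulS H χ) t Dt φ (1 : k) a = (χ t⁻¹ : k) * a := by
    intro a
    show (χ t⁻¹ : k) * ((1 : k) * a) = _
    rw [one_mul]
  constructor
  · intro a b hab
    rw [h, h] at hab
    exact mul_left_cancel₀ (Units.ne_zero _) hab
  · intro c
    refine ⟨((χ t⁻¹)⁻¹ : kˣ) * c, ?_⟩
    rw [h, ← mul_assoc, ← Units.val_mul, mul_inv_cancel, Units.val_one, one_mul]

variable (𝒱 : LevelSystem D)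
  [IsDiscrete (𝒱.comap Dt.subtype) (Rep.res φ (Rep.trivial k H k))]
  [IsDiscrete (𝒱.comap Dt.subtype) (Rep.res Dt.subtype (Rep.res r (chiRep χ)))]

/-- **`(1,1)` in the BASE-INST shape.** -/
theorem bijective_mackey_one_one (hND : CupNonDeg k (𝒱.comap Dt.subtype))
    (τ : Hlc (𝒱.comap Dt.subtype) (Rep.res Dt.subtype (Rep.res r (chiRep χ))) 2 →ₗ[k] k)
    (hτ : Function.Injective τ)
    [FiniteDimensional k (Hlc (𝒱.comap Dt.subtype) (Rep.res φ (Rep.trivial k H k)) 1)]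
    (h : 1 + 1 = 2) :
    Function.Bijective ((HlcCup (𝒱.comap Dt.subtype) (mackeyB (r := r) (mulS H χ) t Dt φ)
      (mackeyB_equivariant (mulS H χ) (mulS_equivariant H χ hχ) hφ) h).compr₂ τ) :=
  haveI : IsDiscrete (𝒱.comap Dt.subtype) (Rep.trivial k Dt k) :=
    ‹IsDiscrete (𝒱.comap Dt.subtype) (Rep.res φ (Rep.trivial k H k))›
  haveI : FiniteDimensional k (Hlc (𝒱.comap Dt.subtype) (Rep.trivial k Dt k) 1) :=
    ‹FiniteDimensional k (Hlc (𝒱.comap Dt.subtype) (Rep.res φ (Rep.trivial k H k)) 1)›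
  bijective_cup_one_one (𝒰 := 𝒱.comap Dt.subtype) (k := k) (G := Dt)
    (P := Rep.res Dt.subtype (Rep.res r (chiRep χ)))
    (B := mackeyB (r := r) (mulS H χ) t Dt φ) hND (res_chiRep_trivial H χ hχ t Dt φ hφ)
    (mackeyB_equivariant (mulS H χ) (mulS_equivariant H χ hχ) hφ)
    (fun h0 => one_ne_zero ((mackeyB_mulS_one_bijective H χ t Dt φ).1
      (h0.trans (map_zero _).symm))) τ hτ h

/-- the flipped `(1,1)` form. -/
theorem bijective_mackey_one_one_flip (hND : CupNonDeg k (𝒱.comap Dt.subtype))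
    (τ : Hlc (𝒱.comap Dt.subtype) (Rep.res Dt.subtype (Rep.res r (chiRep χ))) 2 →ₗ[k] k)
    (hτ : Function.Injective τ)
    [FiniteDimensional k (Hlc (𝒱.comap Dt.subtype) (Rep.res φ (Rep.trivial k H k)) 1)]
    (h : 1 + 1 = 2) :
    Function.Bijective ((HlcCup (𝒱.comap Dt.subtype) (mackeyB (r := r) (mulS H χ) t Dt φ)
      (mackeyB_equivariant (mulS H χ) (mulS_equivariant H χ hχ) hφ) h).compr₂ τ).flip :=
  haveI : IsDiscrete (𝒱.comap Dt.subtype) (Rep.trivial k Dt k) :=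
    ‹IsDiscrete (𝒱.comap Dt.subtype) (Rep.res φ (Rep.trivial k H k))›
  haveI : FiniteDimensional k (Hlc (𝒱.comap Dt.subtype) (Rep.trivial k Dt k) 1) :=
    ‹FiniteDimensional k (Hlc (𝒱.comap Dt.subtype) (Rep.res φ (Rep.trivial k H k)) 1)›
  bijective_cup_one_one_flip (𝒰 := 𝒱.comap Dt.subtype) (k := k) (G := Dt)
    (P := Rep.res Dt.subtype (Rep.res r (chiRep χ)))
    (B := mackeyB (r := r) (mulS H χ) t Dt φ) hND (res_chiRep_trivial H χ hχ t Dt φ hφ)
    (mackeyB_equivariant (mulS H χ) (mulS_equivariant H χ hχ) hφ)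
    (fun h0 => one_ne_zero ((mackeyB_mulS_one_bijective H χ t Dt φ).1
      (h0.trans (map_zero _).symm))) τ hτ h

/-- **`(0,2)` in the BASE-INST shape.** -/
theorem bijective_mackey_zero_two
    (τ : Hlc (𝒱.comap Dt.subtype) (Rep.res Dt.subtype (Rep.res r (chiRep χ))) 2 →ₗ[k] k)
    (hτ : Function.Bijective τ) (h : 0 + 2 = 2) :
    Function.Bijective ((HlcCup (𝒱.comap Dt.subtype) (mackeyB (r := r) (mulS H χ) t Dt φ)
      (mackeyB_equivariant (mulS H χ) (mulS_equivariant H χ hχ) hφ) h).compr₂ τ) :=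
  haveI : IsDiscrete (𝒱.comap Dt.subtype) (Rep.trivial k Dt k) :=
    ‹IsDiscrete (𝒱.comap Dt.subtype) (Rep.res φ (Rep.trivial k H k))›
  bijective_cup_zero_two (𝒰 := 𝒱.comap Dt.subtype) (k := k) (G := Dt)
    (P := Rep.res Dt.subtype (Rep.res r (chiRep χ)))
    (B := mackeyB (r := r) (mulS H χ) t Dt φ) (res_chiRep_trivial H χ hχ t Dt φ hφ)
    (mackeyB_equivariant (mulS H χ) (mulS_equivariant H χ hχ) hφ)
    (mackeyB_mulS_one_bijective H χ t Dt φ) τ hτ h

/-- **`(2,0)` in the BASE-INST shape.** -/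
theorem bijective_mackey_two_zero
    (τ : Hlc (𝒱.comap Dt.subtype) (Rep.res Dt.subtype (Rep.res r (chiRep χ))) 2 →ₗ[k] k)
    (hτ : Function.Bijective τ) (h : 2 + 0 = 2) :
    Function.Bijective ((HlcCup (𝒱.comap Dt.subtype) (mackeyB (r := r) (mulS H χ) t Dt φ)
      (mackeyB_equivariant (mulS H χ) (mulS_equivariant H χ hχ) hφ) h).compr₂ τ) :=
  haveI : IsDiscrete (𝒱.comap Dt.subtype) (Rep.trivial k Dt k) :=
    ‹IsDiscrete (𝒱.comap Dt.subtype) (Rep.res φ (Rep.trivial k H k))›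
  bijective_cup_two_zero (𝒰 := 𝒱.comap Dt.subtype) (k := k) (G := Dt)
    (P := Rep.res Dt.subtype (Rep.res r (chiRep χ)))
    (B := mackeyB (r := r) (mulS H χ) t Dt φ) (res_chiRep_trivial H χ hχ t Dt φ hφ)
    (mackeyB_equivariant (mulS H χ) (mulS_equivariant H χ hχ) hφ)
    (mackeyB_mulS_one_bijective H χ t Dt φ) τ hτ h

end Mackey

end Fermat.Agent.GC.Local.Hilbert
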