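/-
GATE-C / C3-HILBERT (helper61): local perfectness (N-c) INSTANTIATED at helper69's places data
`(t, Dt, φ) = (s⁻¹, locGroup q K s, locHom q K s)`, `r = localGaloisToGlobal q`,
`H = G_K = K.fixingSubgroup`, level system `levelLoc q K s`, pairing
`mackeyB (mulS G_K χ) s⁻¹ (locGroup q K s) (locHom q K s)` — the `Q_w` of BASE-INST.
-/
import Mathlib
import Fermat.Agent.GC.Local.Hilbert.Perfect
import Fermat.Agent.GC.Local.Hilbert.PerfectMackey
import Fermat.Agent.GC.Places.MackeyPi

set_option autoImplicit false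

namespace Fermat.Agent.GC.Local.Hilbert

open CategoryTheory groupCohomology Rep Fermat.Agent.GC.Prof
open Fermat.Agent.GC.Local.KR Fermat.Agent.GC.Places
open Fermat.Agent.GC.Prof.Cup (Equivariant)
open scoped Padic

local notation "Qb" => AlgebraicClosure ℚ
local notation "GQ" => (AlgebraicClosure ℚ ≃ₐ[ℚ] AlgebraicClosure ℚ)

section Loc

variable (q : ℕ) [Fact q.Prime] {p : ℕ} [Fact p.Prime]
  (K : IntermediateField ℚ Qb) [FiniteDimensional ℚ K] (s : GQ)
  (χ : GQ →* (ZMod p)ˣ) (hχ : ∀ g : K.fixingSubgroup, χ (g : GQ) = 1)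
  {ζ : locField q K s} (hζ : IsPrimitiveRoot ζ p)
  [IsDiscrete (levelLoc q K s)
    (Rep.res (locHom q K s) (Rep.trivial (ZMod p) K.fixingSubgroup (ZMod p)))]
  [IsDiscrete (levelLoc q K s)
    (Rep.res (locGroup q K s).subtype (Rep.res (localGaloisToGlobal q) (chiRep χ)))]

include hζ in
/-- **local duality `Q_w`, bidegree `(1,1)`.** -/
theorem bijective_loc_one_one
    (τ : Hlc (levelLoc q K s)
      (Rep.res (locGroup q K s).subtype (Rep.res (localGaloisToGlobal q) (chiRep χ))) 2
        →ₗ[ZMod p] ZMod p)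
    (hτ : Function.Injective τ)
    [FiniteDimensional (ZMod p) (Hlc (levelLoc q K s)
      (Rep.res (locHom q K s) (Rep.trivial (ZMod p) K.fixingSubgroup (ZMod p))) 1)]
    (h : 1 + 1 = 2) :
    Function.Bijective ((HlcCup (levelLoc q K s)
      (mackeyB (r := localGaloisToGlobal q) (mulS K.fixingSubgroup χ) s⁻¹ (locGroup q K s)
        (locHom q K s))
      (mackeyB_equivariant (mulS K.fixingSubgroup χ) (mulS_equivariant K.fixingSubgroup χ hχ)
        (locHom_mul_inv q K s)) h).compr₂ τ) :=
  haveI : IsDiscrete ((levelQ q).comap (locGroup q K s).subtype)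
      (Rep.res (locHom q K s) (Rep.trivial (ZMod p) K.fixingSubgroup (ZMod p))) :=
    ‹IsDiscrete (levelLoc q K s)
      (Rep.res (locHom q K s) (Rep.trivial (ZMod p) K.fixingSubgroup (ZMod p)))›
  haveI : IsDiscrete ((levelQ q).comap (locGroup q K s).subtype)
      (Rep.res (locGroup q K s).subtype (Rep.res (localGaloisToGlobal q) (chiRep χ))) :=
    ‹IsDiscrete (levelLoc q K s)
      (Rep.res (locGroup q K s).subtype (Rep.res (localGaloisToGlobal q) (chiRep χ)))›
  haveI : FiniteDimensional (ZMod p) (Hlc ((levelQ q).comap (locGroup q K s).subtype)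
      (Rep.res (locHom q K s) (Rep.trivial (ZMod p) K.fixingSubgroup (ZMod p))) 1) :=
    ‹FiniteDimensional (ZMod p) (Hlc (levelLoc q K s)
      (Rep.res (locHom q K s) (Rep.trivial (ZMod p) K.fixingSubgroup (ZMod p))) 1)›
  bijective_mackey_one_one (r := localGaloisToGlobal q) K.fixingSubgroup χ hχ s⁻¹
    (locGroup q K s) (locHom q K s) (locHom_mul_inv q K s) (levelQ q)
    (cupNonDeg_levelLoc q K s hζ) τ hτ h

include hζ in
/-- the flipped `(1,1)` form. -/
theorem bijective_loc_one_one_flip
    (τ : Hlc (levelLoc q K s)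
      (Rep.res (locGroup q K s).subtype (Rep.res (localGaloisToGlobal q) (chiRep χ))) 2
        →ₗ[ZMod p] ZMod p)
    (hτ : Function.Injective τ)
    [FiniteDimensional (ZMod p) (Hlc (levelLoc q K s)
      (Rep.res (locHom q K s) (Rep.trivial (ZMod p) K.fixingSubgroup (ZMod p))) 1)]
    (h : 1 + 1 = 2) :
    Function.Bijective ((HlcCup (levelLoc q K s)
      (mackeyB (r := localGaloisToGlobal q) (mulS K.fixingSubgroup χ) s⁻¹ (locGroup q K s)
        (locHom q K s))
      (mackeyB_equivariant (mulS K.fixingSubgroup χ) (mulS_equivariant K.fixingSubgroup χ hχ)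
        (locHom_mul_inv q K s)) h).compr₂ τ).flip :=
  haveI : IsDiscrete ((levelQ q).comap (locGroup q K s).subtype)
      (Rep.res (locHom q K s) (Rep.trivial (ZMod p) K.fixingSubgroup (ZMod p))) :=
    ‹IsDiscrete (levelLoc q K s)
      (Rep.res (locHom q K s) (Rep.trivial (ZMod p) K.fixingSubgroup (ZMod p)))›
  haveI : IsDiscrete ((levelQ q).comap (locGroup q K s).subtype)
      (Rep.res (locGroup q K s).subtype (Rep.res (localGaloisToGlobal q) (chiRep χ))) :=
    ‹IsDiscrete (levelLoc q K s)
      (Rep.res (locGroup q K s).subtype (Rep.res (localGaloisToGlobal q) (chiRep χ)))›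
  haveI : FiniteDimensional (ZMod p) (Hlc ((levelQ q).comap (locGroup q K s).subtype)
      (Rep.res (locHom q K s) (Rep.trivial (ZMod p) K.fixingSubgroup (ZMod p))) 1) :=
    ‹FiniteDimensional (ZMod p) (Hlc (levelLoc q K s)
      (Rep.res (locHom q K s) (Rep.trivial (ZMod p) K.fixingSubgroup (ZMod p))) 1)›
  bijective_mackey_one_one_flip (r := localGaloisToGlobal q) K.fixingSubgroup χ hχ s⁻¹
    (locGroup q K s) (locHom q K s) (locHom_mul_inv q K s) (levelQ q)
    (cupNonDeg_levelLoc q K s hζ) τ hτ h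

omit [FiniteDimensional ℚ K] in
/-- **local duality `Q_w`, bidegree `(0,2)`.** -/
theorem bijective_loc_zero_two
    (τ : Hlc (levelLoc q K s)
      (Rep.res (locGroup q K s).subtype (Rep.res (localGaloisToGlobal q) (chiRep χ))) 2
        →ₗ[ZMod p] ZMod p)
    (hτ : Function.Bijective τ) (h : 0 + 2 = 2) :
    Function.Bijective ((HlcCup (levelLoc q K s)
      (mackeyB (r := localGaloisToGlobal q) (mulS K.fixingSubgroup χ) s⁻¹ (locGroup q K s)
        (locHom q K s))
      (mackeyB_equivariant (mulS K.fixingSubgroup χ) (mulS_equivariant K.fixingSubgroup χ hχ)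
        (locHom_mul_inv q K s)) h).compr₂ τ) :=
  haveI : IsDiscrete ((levelQ q).comap (locGroup q K s).subtype)
      (Rep.res (locHom q K s) (Rep.trivial (ZMod p) K.fixingSubgroup (ZMod p))) :=
    ‹IsDiscrete (levelLoc q K s)
      (Rep.res (locHom q K s) (Rep.trivial (ZMod p) K.fixingSubgroup (ZMod p)))›
  haveI : IsDiscrete ((levelQ q).comap (locGroup q K s).subtype)
      (Rep.res (locGroup q K s).subtype (Rep.res (localGaloisToGlobal q) (chiRep χ))) :=
    ‹IsDiscrete (levelLoc q K s)
      (Rep.res (locGroup q K s).subtype (Rep.res (localGaloisToGlobal q) (chiRep χ)))›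
  bijective_mackey_zero_two (r := localGaloisToGlobal q) K.fixingSubgroup χ hχ s⁻¹
    (locGroup q K s) (locHom q K s) (locHom_mul_inv q K s) (levelQ q) τ hτ h

omit [FiniteDimensional ℚ K] in
/-- **local duality `Q_w`, bidegree `(2,0)`.** -/
theorem bijective_loc_two_zero
    (τ : Hlc (levelLoc q K s)
      (Rep.res (locGroup q K s).subtype (Rep.res (localGaloisToGlobal q) (chiRep χ))) 2
        →ₗ[ZMod p] ZMod p)
    (hτ : Function.Bijective τ) (h : 2 + 0 = 2) :
    Function.Bijective ((HlcCup (levelLoc q K s)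
      (mackeyB (r := localGaloisToGlobal q) (mulS K.fixingSubgroup χ) s⁻¹ (locGroup q K s)
        (locHom q K s))
      (mackeyB_equivariant (mulS K.fixingSubgroup χ) (mulS_equivariant K.fixingSubgroup χ hχ)
        (locHom_mul_inv q K s)) h).compr₂ τ) :=
  haveI : IsDiscrete ((levelQ q).comap (locGroup q K s).subtype)
      (Rep.res (locHom q K s) (Rep.trivial (ZMod p) K.fixingSubgroup (ZMod p))) :=
    ‹IsDiscrete (levelLoc q K s)
      (Rep.res (locHom q K s) (Rep.trivial (ZMod p) K.fixingSubgroup (ZMod p)))›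
  haveI : IsDiscrete ((levelQ q).comap (locGroup q K s).subtype)
      (Rep.res (locGroup q K s).subtype (Rep.res (localGaloisToGlobal q) (chiRep χ))) :=
    ‹IsDiscrete (levelLoc q K s)
      (Rep.res (locGroup q K s).subtype (Rep.res (localGaloisToGlobal q) (chiRep χ)))›
  bijective_mackey_two_zero (r := localGaloisToGlobal q) K.fixingSubgroup χ hχ s⁻¹
    (locGroup q K s) (locHom q K s) (locHom_mul_inv q K s) (levelQ q) τ hτ h

end Loc

end Fermat.Agent.GC.Local.Hilbert
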