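/-
GATE-C / C3-HILBERT (helper61), brick (H1): the finite-level NORM-RESIDUE CRITERION.

`G` a group, `A : Rep k G`, `S ⊴ G` with `G ⧸ S` cyclic of order `n` generated by `σ`,
`H¹(S, A) = 0` (Hilbert 90).  `χ(g) := lg (g mod S) ∈ [0, n)` the integer lift of the character,
`α ∈ A` with `a := n • α` invariant, `κ(g) := g α − α` the Kummer cochain.  Then the 2-cocycle
`(χ ∪ κ)(g, h) = χ(g) • g (κ h)` is a coboundary  ⟺  `a ∈ N_{G/S}(A^S)`.

Proof: `χ ∪ κ + d(χ ∪ α) = dχ ∪ α =` inflation of helper3's standard cocycle of `a`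
(`CycH2.stdCocycle`); inflation is injective on `H²` (helper1's `InfRes2.inf_injective`);
`CycH2.H2π_stdCocycles₂_eq_zero_iff`.
-/
import Mathlib
import Fermat.Agent.GC.Local.CycH2
import Fermat.Agent.GC.Tate.InfRes2

set_option autoImplicit false

universe u

namespace Fermat.Agent.GC.Local.Hilbert

open CategoryTheory groupCohomology Rep
open Fermat.Agent.GC.Local.CycH2 Fermat.Agent.GC.Tate.InfRes2

variable {k G : Type u} [CommRing k] [Group G] (A : Rep k G) (S : Subgroup G) [S.Normal]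
variable {σ : G ⧸ S} {n : ℕ} (hσ : IsGen σ n)

/-- the lift `G → [0, n)` of the character `G → G ⧸ S ≃ ℤ/n` sending `σ` to `1`. -/
noncomputable def chi (g : G) : ℕ := hσ.lg (g : G ⧸ S)

lemma chi_lt (g : G) : chi S hσ g < n := hσ.lg_lt _

lemma chi_mul (g h : G) : chi S hσ (g * h) = (chi S hσ g + chi S hσ h) % n := by
  unfold chi
  rw [QuotientGroup.mk_mul, hσ.lg_mul]

lemma chi_mul_mem (g : G) {s : G} (hs : s ∈ S) : chi S hσ (g * s) = chi S hσ g := by
  unfold chi
  rw [QuotientGroup.mk_mul_of_mem g hs]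

/-- `χ(g) + χ(h) = n * carry + χ(gh)`. -/
lemma chi_add (g h : G) :
    chi S hσ g + chi S hσ h = n * ((chi S hσ g + chi S hσ h) / n) + chi S hσ (g * h) := by
  rw [chi_mul]
  exact (Nat.div_add_mod _ _).symm

/-- the Kummer 1-cochain `g ↦ g α − α`. -/
def kum (α : A) : G → A := fun g => A.ρ g α - α

/-- the cup product `χ ∪ κ(α)`. -/
noncomputable def symb (α : A) : G × G → A :=
  fun p => chi S hσ p.1 • A.ρ p.1 (kum A α p.2)

/-- the carry cocycle `(g, h) ↦ ⌊(χ g + χ h)/n⌋ • a`. -/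
noncomputable def carry (a : A) : G × G → A :=
  fun p => ((chi S hσ p.1 + chi S hσ p.2) / n) • a

/-- the 1-cochain `χ ∪ α`. -/
noncomputable def phi (α : A) : G → A := fun g => chi S hσ g • A.ρ g α

/-- Leibniz: `χ ∪ κ(α) + d(χ ∪ α) = carry (n • α)`. -/
theorem symb_add_dOne (α : A) (hα : ∀ g, A.ρ g (n • α) = n • α) :
    symb A S hσ α + dOne A (phi A S hσ α) = carry A S hσ (n • α) := by
  funext ⟨g, h⟩
  simp only [Pi.add_apply, symb, dOne_apply, phi, carry, kum]
  have e := chi_add S hσ g h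
  have h1 : ((chi S hσ g + chi S hσ h) / n) • (n • α) =
      (n * ((chi S hσ g + chi S hσ h) / n)) • A.ρ (g * h) α := by
    rw [mul_comm, mul_smul, ← map_nsmul (A.ρ (g * h)), hα]
  rw [h1]
  have h2 : (n * ((chi S hσ g + chi S hσ h) / n)) • A.ρ (g * h) α + chi S hσ (g * h) • A.ρ (g * h) α
      = chi S hσ g • A.ρ (g * h) α + chi S hσ h • A.ρ (g * h) α := by
    rw [← add_smul, ← add_smul, ← e]
  simp only [map_sub, map_nsmul, smul_sub, map_mul, Module.End.mul_apply] at h2 ⊢
  linear_combination (norm := abel) (-1 : ℤ) • h2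

/-- a `G`-invariant of `A` as a `G ⧸ S`-invariant of `A^S`. -/
def invQ (a : A) (ha : ∀ g, A.ρ g a = a) : (A.quotientToInvariants S).ρ.invariants :=
  ⟨⟨a, fun s => ha s⟩, fun q => by
    induction q using QuotientGroup.induction_on with
    | H g => exact Subtype.ext (ha g)⟩

/-- the carry cocycle is the inflation of the standard cocycle. -/
theorem carry_eq_inf (a : A) (ha : ∀ g, A.ρ g a = a) :
    carry A S hσ a = (mapCocycles₂ (QuotientGroup.mk' S)
      (ofHom <| A.ρ.quotientToInvariants_lift S) (stdCocycles₂ hσ (invQ A S a ha)) : G × G → A) := by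
  funext ⟨g, h⟩
  erw [mapCocycles₂_apply]
  rfl

theorem carry_mem_cocycles₂ (a : A) (ha : ∀ g, A.ρ g a = a) : carry A S hσ a ∈ cocycles₂ A := by
  rw [carry_eq_inf A S hσ a ha]
  exact Subtype.property _

theorem dOne_mem_cocycles₂ (v : G → A) : dOne A v ∈ cocycles₂ A := by
  rw [dOne_eq]
  exact coboundaries₂_le_cocycles₂ A ⟨v, rfl⟩

theorem symb_eq (α : A) (hα : ∀ g, A.ρ g (n • α) = n • α) :
    symb A S hσ α = carry A S hσ (n • α) - dOne A (phi A S hσ α) :=
  eq_sub_of_add_eq (symb_add_dOne A S hσ α hα)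

theorem symb_mem_cocycles₂ (α : A) (hα : ∀ g, A.ρ g (n • α) = n • α) :
    symb A S hσ α ∈ cocycles₂ A := by
  rw [symb_eq A S hσ α hα]
  exact Submodule.sub_mem _ (carry_mem_cocycles₂ A S hσ _ hα) (dOne_mem_cocycles₂ A _)

/-- the class of `χ ∪ κ(α)` is the inflation of the class of the standard cocycle of `n • α`. -/
theorem H2π_symb_eq_inf (α : A) (hα : ∀ g, A.ρ g (n • α) = n • α) :
    H2π A ⟨symb A S hσ α, symb_mem_cocycles₂ A S hσ α hα⟩ =
      (H2InfRes A S).f.hom (H2π _ (stdCocycles₂ hσ (invQ A S (n • α) hα))) := by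
  have h1 : (H2InfRes A S).f.hom (H2π _ (stdCocycles₂ hσ (invQ A S (n • α) hα))) =
      H2π A (mapCocycles₂ (QuotientGroup.mk' S)
        (ofHom <| A.ρ.quotientToInvariants_lift S) (stdCocycles₂ hσ (invQ A S (n • α) hα))) := by
    have := H2π_comp_map (A := A.quotientToInvariants S) (B := A) (QuotientGroup.mk' S)
      (ofHom <| A.ρ.quotientToInvariants_lift S)
    exact congr($(this).hom (stdCocycles₂ hσ (invQ A S (n • α) hα)))
  rw [h1, H2π_eq_iff]
  refine ⟨-(phi A S hσ α), ?_⟩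
  rw [← carry_eq_inf A S hσ (n • α) hα]
  show (d₁₂ A).hom (-(phi A S hσ α)) = symb A S hσ α - carry A S hσ (n • α)
  rw [map_neg, ← dOne_eq, symb_eq A S hσ α hα]
  abel

/-- **Norm-residue criterion (finite level)**, quotient form. -/
theorem H2π_symb_eq_zero_iff' (h1 : Limits.IsZero (groupCohomology (res S.subtype A) 1))
    (α : A) (hα : ∀ g, A.ρ g (n • α) = n • α) :
    H2π A ⟨symb A S hσ α, symb_mem_cocycles₂ A S hσ α hα⟩ = 0 ↔
      H2π _ (stdCocycles₂ hσ (invQ A S (n • α) hα)) = 0 := by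
  rw [H2π_symb_eq_inf A S hσ α hα]
  constructor
  · intro h
    apply inf_injective A S h1
    exact h.trans (map_zero (H2InfRes A S).f.hom).symm
  · intro h
    exact (congrArg (H2InfRes A S).f.hom h).trans (map_zero (H2InfRes A S).f.hom)

/-- **Norm-residue criterion (finite level).** `τ ∈ G` any lift of the generator `σ`. -/
theorem H2π_symb_eq_zero_iff (h1 : Limits.IsZero (groupCohomology (res S.subtype A) 1))
    (α : A) (hα : ∀ g, A.ρ g (n • α) = n • α) (τ : G) (hτ : (τ : G ⧸ S) = σ) :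
    H2π A ⟨symb A S hσ α, symb_mem_cocycles₂ A S hσ α hα⟩ = 0 ↔
      ∃ b : A, (∀ s ∈ S, A.ρ s b = b) ∧ n • α = ∑ i ∈ Finset.range n, A.ρ (τ ^ i) b := by
  rw [H2π_symb_eq_zero_iff' A S hσ h1 α hα, H2π_stdCocycles₂_eq_zero_iff hσ]
  have key : ∀ b : (A.quotientToInvariants S),
      ((@nrm _ _ _ _ (repAction (A.quotientToInvariants S)) σ n b : A.quotientToInvariants S) : A)
        = ∑ i ∈ Finset.range n, A.ρ (τ ^ i) (b : A) := by
    intro b
    unfold nrm
    rw [AddSubmonoidClass.coe_finsetSum]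
    refine Finset.sum_congr rfl fun i _ => ?_
    subst hτ
    rfl
  constructor
  · rintro ⟨b, hb⟩
    refine ⟨(b : A), fun s hs => b.2 ⟨s, hs⟩, ?_⟩
    rw [← key b, ← hb]
    rfl
  · rintro ⟨b, hbS, hb⟩
    refine ⟨⟨b, fun s => hbS s.1 s.2⟩, ?_⟩
    apply Subtype.ext
    rw [key]
    exact hb


section Char

variable {G : Type*} [Group G] {n : ℕ} [NeZero n] (χ : G →* Multiplicative (ZMod n))

/-- the injective character of `G ⧸ ker χ`. -/
lemma kerLift_pow_val (τ : G) (hτ : χ τ = Multiplicative.ofAdd 1) (g : G) :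
    ((τ : G ⧸ χ.ker)) ^ (Multiplicative.toAdd (χ g)).val = (g : G ⧸ χ.ker) := by
  apply QuotientGroup.kerLift_injective χ
  rw [map_pow, QuotientGroup.kerLift_mk, QuotientGroup.kerLift_mk, hτ]
  apply Multiplicative.toAdd.injective
  rw [toAdd_pow, toAdd_ofAdd, nsmul_eq_mul, mul_one, ZMod.natCast_zmod_val]

theorem isGen_of_char (τ : G) (hτ : χ τ = Multiplicative.ofAdd 1) :
    IsGen ((τ : G ⧸ χ.ker)) n where
  pos := Nat.pos_of_ne_zero (NeZero.ne n)
  order := by
    rw [← orderOf_injective (QuotientGroup.kerLift χ) (QuotientGroup.kerLift_injective χ),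
      QuotientGroup.kerLift_mk, hτ, orderOf_ofAdd_eq_addOrderOf, ZMod.addOrderOf_one]
  gen := by
    intro x
    induction x using QuotientGroup.induction_on with
    | H g =>
      rw [Subgroup.mem_zpowers_iff]
      exact ⟨((Multiplicative.toAdd (χ g)).val : ℤ), by
        rw [zpow_natCast]; exact kerLift_pow_val χ τ hτ g⟩

theorem chi_eq_val (τ : G) (hτ : χ τ = Multiplicative.ofAdd 1) (g : G) :
    chi χ.ker (isGen_of_char χ τ hτ) g = (Multiplicative.toAdd (χ g)).val := by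
  unfold chi
  rw [(isGen_of_char χ τ hτ).lg_eq_of_pow_eq (kerLift_pow_val χ τ hτ g),
    Nat.mod_eq_of_lt (ZMod.val_lt _)]

end Char


end Fermat.Agent.GC.Local.Hilbert
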