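/-
GATE-C / C3-HILBERT (helper61), brick (H2): the NORM-RESIDUE CRITERION for a finite Galois
extension `L/K` of fields.

`χ : Gal(L/K) →* ZMod n` a character with `χ τ = 1`, `F := L^{ker χ}` (cyclic of degree `n` over
`K`), `α ∈ Lˣ` with `α ^ n ∈ K`.  Then the class of the cocycle `χ ∪ κ(α)` in `H²(Gal(L/K), Lˣ)`
vanishes  ⟺  `α ^ n` is a norm from `F`.
-/
import Mathlib
import Fermat.Agent.GC.Local.Hilbert.SymbolFinite
import Fermat.Agent.GC.Local.GalPair

set_option autoImplicit false

namespace Fermat.Agent.GC.Local.Hilbert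

open CategoryTheory groupCohomology Rep IntermediateField
open Fermat.Agent.GC.Local.CycH2 Fermat.Agent.GC.Tate.InfRes2 Fermat.Agent.GC.Local.GalPair

section Gen

variable {Q M : Type*} [Group Q] [CommMonoid M] {σ : Q} {m : ℕ}

/-- a product over a finite cyclic group as a product over the powers of a generator. -/
theorem IsGen.prod_pow_eq [Fintype Q] (h : IsGen σ m) (f : Q → M) :
    ∏ i ∈ Finset.range m, f (σ ^ i) = ∏ q : Q, f q := by
  classical
  refine Finset.prod_bij (fun i _ => σ ^ i) (fun _ _ => Finset.mem_univ _) ?_ ?_ (fun _ _ => rfl)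
  · intro a ha b hb hab
    have ha' := Finset.mem_range.1 ha
    have hb' := Finset.mem_range.1 hb
    have h1 := h.lg_pow a
    rw [hab, h.lg_pow, Nat.mod_eq_of_lt ha', Nat.mod_eq_of_lt hb'] at h1
    exact h1.symm
  · intro g _
    obtain ⟨a, ha, rfl⟩ := h.exists_pow g
    exact ⟨a, Finset.mem_range.2 ha, rfl⟩

end Gen

section Field

variable (K L : Type) [Field K] [Field L] [Algebra K L] [FiniteDimensional K L] [IsGalois K L]

/-- a unit as an element of the Galois module `Lˣ`. -/
def toA (α : Lˣ) : (Rep.ofAlgebraAutOnUnits K L).V := (Additive.ofMul α : Additive Lˣ)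

/-- an element of the Galois module `Lˣ` as a unit. -/
def ofA (x : (Rep.ofAlgebraAutOnUnits K L).V) : Lˣ := Additive.toMul (x : Additive Lˣ)

omit [IsGalois K L] in
/-- Hilbert 90 for every subgroup of the Galois group. -/
theorem isZero_H1_res_units (S : Subgroup (L ≃ₐ[K] L)) :
    Limits.IsZero (groupCohomology (Rep.res S.subtype (Rep.ofAlgebraAutOnUnits K L)) 1) := by
  have e := (subPair K L S).cohIso 1
  have h : Limits.IsZero (groupCohomology (Rep.ofAlgebraAutOnUnits (fixedField S) L) 1) :=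
    @ModuleCat.isZero_of_subsingleton _ _ _
      (show Subsingleton (H1 (Rep.ofAlgebraAutOnUnits (fixedField S) L)) from inferInstance)
  exact Limits.IsZero.of_iso h e


/-- the norm from the fixed field of a normal subgroup with cyclic quotient, as a product over
the powers of a lift of the generator. -/
theorem algebraMap_norm_fixedField_eq_prod (S : Subgroup (L ≃ₐ[K] L)) [S.Normal]
    {n : ℕ} (τ : L ≃ₐ[K] L) (hgen : IsGen ((τ : (L ≃ₐ[K] L) ⧸ S)) n) (b : fixedField S) :
    algebraMap K L (Algebra.norm K b) = ∏ i ∈ Finset.range n, (τ ^ i) (b : L) := by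
  classical
  have : IsGalois K (fixedField S) := IsGalois.of_fixedField_normal_subgroup S
  let _ : Fintype ((L ≃ₐ[K] L) ⧸ S) := Fintype.ofFinite _
  have h1 : algebraMap K (fixedField S) (Algebra.norm K b) = ∏ σ : (fixedField S) ≃ₐ[K] (fixedField S), σ b :=
    Algebra.norm_eq_prod_automorphisms K b
  have h2 : algebraMap K L (Algebra.norm K b) =
      algebraMap (fixedField S) L (algebraMap K (fixedField S) (Algebra.norm K b)) :=
    IsScalarTower.algebraMap_apply K (fixedField S) L _
  rw [h2, h1, map_prod]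
  rw [← Equiv.prod_comp (IsGalois.normalAutEquivQuotient S).toEquiv,
    ← IsGen.prod_pow_eq hgen]
  refine Finset.prod_congr rfl fun i _ => ?_
  rw [← QuotientGroup.mk_pow]
  show algebraMap (fixedField S) L ((IsGalois.normalAutEquivQuotient S ((τ ^ i : L ≃ₐ[K] L) : (L ≃ₐ[K] L) ⧸ S)) b) = _
  rw [IsGalois.normalAutEquivQuotient_apply]
  exact AlgEquiv.restrictNormal_commutes (τ ^ i) (fixedField S) b


omit [FiniteDimensional K L] [IsGalois K L] in
lemma ofA_sum {ι : Type*} (s : Finset ι) (f : ι → (Rep.ofAlgebraAutOnUnits K L).V) :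
    ((ofA K L (∑ i ∈ s, f i) : Lˣ) : L) = ∏ i ∈ s, ((ofA K L (f i) : Lˣ) : L) := by
  classical
  induction s using Finset.induction_on with
  | empty => rfl
  | insert a s ha ih =>
    rw [Finset.sum_insert ha, Finset.prod_insert ha, ← ih]
    rfl

variable {n : ℕ} [NeZero n] (χ : (L ≃ₐ[K] L) →* Multiplicative (ZMod n)) (τ : L ≃ₐ[K] L)
  (hτ : χ τ = Multiplicative.ofAdd 1) (α : Lˣ)
  (hα : ∀ g : L ≃ₐ[K] L, g ((α : L) ^ n) = (α : L) ^ n)

include hα in
omit [FiniteDimensional K L] [IsGalois K L] [NeZero n] in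
lemma rho_nsmul_toA (g : L ≃ₐ[K] L) :
    (Rep.ofAlgebraAutOnUnits K L).ρ g (n • toA K L α) = n • toA K L α := by
  show toA K L (Units.map (g : L →* L) (α ^ n)) = toA K L (α ^ n)
  congr 1
  apply Units.ext
  simpa using hα g

/-- **Norm-residue criterion, field form (elementary).** -/
theorem H2π_symb_units_eq_zero_iff :
    H2π (Rep.ofAlgebraAutOnUnits K L) ⟨symb (Rep.ofAlgebraAutOnUnits K L) χ.ker
      (isGen_of_char χ τ hτ) (toA K L α),
      symb_mem_cocycles₂ _ _ _ _ (rho_nsmul_toA K L α hα)⟩ = 0 ↔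
    ∃ b : fixedField χ.ker, (α : L) ^ n = algebraMap K L (Algebra.norm K b) := by
  rw [H2π_symb_eq_zero_iff (Rep.ofAlgebraAutOnUnits K L) χ.ker (isGen_of_char χ τ hτ)
    (isZero_H1_res_units K L χ.ker) (toA K L α) (rho_nsmul_toA K L α hα) τ rfl]
  constructor
  · rintro ⟨b, hbS, hb⟩
    have hmem : ((ofA K L b : Lˣ) : L) ∈ fixedField χ.ker := by
      intro s
      have := hbS s.1 s.2
      exact congrArg (fun x => ((ofA K L x : Lˣ) : L)) this
    refine ⟨⟨_, hmem⟩, ?_⟩
    rw [algebraMap_norm_fixedField_eq_prod K L χ.ker τ (isGen_of_char χ τ hτ)]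
    have := congrArg (fun x => ((ofA K L x : Lˣ) : L)) hb
    simp only [ofA_sum] at this
    exact this
  · rintro ⟨b, hb⟩
    rw [algebraMap_norm_fixedField_eq_prod K L χ.ker τ (isGen_of_char χ τ hτ)] at hb
    have hn : 0 < n := Nat.pos_of_ne_zero (NeZero.ne n)
    have hb0 : (b : L) ≠ 0 := by
      intro h0
      have : (α : L) ^ n = 0 := by
        rw [hb]
        apply Finset.prod_eq_zero (Finset.mem_range.2 hn)
        rw [pow_zero, h0]
        exact map_zero _
      exact (pow_ne_zero n α.ne_zero) this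
    refine ⟨toA K L (Units.mk0 (b : L) hb0), ?_, ?_⟩
    · intro s hs
      show toA K L (Units.map (s : L →* L) (Units.mk0 (b : L) hb0)) = toA K L (Units.mk0 (b : L) hb0)
      congr 1
      apply Units.ext
      exact b.2 ⟨s, hs⟩
    · apply Additive.toMul.injective
      apply Units.ext
      have h1 := ofA_sum K L (Finset.range n)
        (fun i => (Rep.ofAlgebraAutOnUnits K L).ρ (τ ^ i) (toA K L (Units.mk0 (b : L) hb0)))
      show ((ofA K L (n • toA K L α) : Lˣ) : L) = ((ofA K L _ : Lˣ) : L)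
      rw [h1]
      show ((α ^ n : Lˣ) : L) = _
      rw [Units.val_pow_eq_pow_val, hb]
      rfl

end Field

end Fermat.Agent.GC.Local.Hilbert
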