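/-
GATE-C / C3-HILBERT (helper61), brick (H3): the NORM-RESIDUE CRITERION on level-constant cochains
(profinite form).

`(G, 𝒰)` a level system, `A` a discrete `G`-module, `S ∈ 𝒰` normal with `G ⧸ S` cyclic of order `n`
generated by `σ`, and HILBERT 90 IN THE LIMIT for `S` (`LCH1Vanishes`: level-constant 1-cocycles of
`S` are coboundaries).  Then for `α ∈ A` with `n • α` invariant, the level-constant 2-cocycle
`χ ∪ κ(α)` is the coboundary of a LEVEL-CONSTANT 1-cochain  ⟺  `n • α ∈ N_{G/S}(A^S)`; equivalently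
its class in `Hlc 𝒰 A 2` vanishes.
-/
import Mathlib
import Fermat.Agent.GC.Local.Hilbert.SymbolFinite
import Fermat.Agent.GC.Prof.Low

set_option autoImplicit false

universe u

namespace Fermat.Agent.GC.Local.Hilbert

open CategoryTheory groupCohomology Rep
open Fermat.Agent.GC.Local.CycH2 Fermat.Agent.GC.Tate.InfRes2 Fermat.Agent.GC.Prof

section Descent

variable {k G : Type u} [CommRing k] [Group G] {A : Rep k G} {S : Subgroup G}

/-- **Injectivity of inflation, cocycle level, one cocycle at a time.**  Same as helper1's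
`InfRes2.exists_descent`, but only the ONE 1-cocycle `s ↦ v s - y (1, 1)` of `S` is assumed to be a
coboundary (so that the hypothesis can be restricted to level-constant cocycles). -/
theorem exists_descent_of_exists [S.Normal] {y : G × G → A} (hy : IsZ2 A y)
    (hy1 : ∀ g h, ∀ s ∈ S, y (g, h * s) = y (g, h)) (hy2 : ∀ g h, ∀ s ∈ S, y (g * s, h) = y (g, h))
    (v : G → A) (hv : y = dOne A v)
    (hH : ∃ a : A, ∀ s ∈ S, v s - y (1, 1) = A.ρ s a - a) :
    ∃ a : A, y = dOne A (v - fun g => A.ρ g a - a) ∧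
      (∀ g, ∀ s ∈ S, (v - fun g => A.ρ g a - a) (g * s) = (v - fun g => A.ρ g a - a) g) ∧
      (∀ g, ∀ s ∈ S, A.ρ s ((v - fun g => A.ρ g a - a) g) = (v - fun g => A.ρ g a - a) g) := by
  have hc : ∀ s ∈ S, ∀ t ∈ S, y (s, t) = y (1, 1) := by
    intro s hs t ht
    have := hy2 1 t s hs
    have := hy1 1 1 t ht
    simp_all
  have hyg1 : ∀ g, y (g, 1) = A.ρ g (y (1, 1)) := by
    intro g
    have := hy g 1 1
    simp only [mul_one] at this
    linear_combination (norm := abel) this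
  have hy1g : ∀ g, y (1, g) = y (1, 1) := by
    intro g
    have := hy 1 1 g
    simp only [mul_one, one_mul, map_one, Module.End.one_apply] at this
    linear_combination (norm := abel) (-1 : ℤ) • this
  obtain ⟨a, ha⟩ := hH
  refine ⟨a, ?_⟩
  have hv' : y = dOne A (v - fun g => A.ρ g a - a) := by
    rw [dOne_sub, dOne_dZero, sub_zero, hv]
  have hvS : ∀ s ∈ S, (v - fun g => A.ρ g a - a) s = y (1, 1) := by
    intro s hs
    have := ha s hs
    simp only [Pi.sub_apply]
    linear_combination (norm := abel) this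
  set v' : G → A := v - fun g => A.ρ g a - a with hv'_def
  have hA : ∀ g, ∀ s ∈ S, v' (g * s) = v' g := by
    intro g s hs
    have h1 : y (g, s) = A.ρ g (y (1, 1)) := by
      have := hy1 g 1 s hs
      rw [one_mul] at this
      rw [this, hyg1]
    have h2 := congr_fun hv' (g, s)
    rw [dOne_apply, hvS s hs, h1] at h2
    linear_combination (norm := abel) h2
  refine ⟨hv', hA, fun g s hs => ?_⟩
  have h1 : y (s, g) = y (1, 1) := by
    have := hy2 1 g s hs
    rw [one_mul] at this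
    rw [this, hy1g]
  have h2 := congr_fun hv' (s, g)
  rw [dOne_apply, hvS s hs, show s * g = g * (g⁻¹ * s * g) by group,
    hA g _ (Subgroup.Normal.conj_mem' ‹_› s hs g), h1] at h2
  linear_combination (norm := abel) (-1 : ℤ) • h2

end Descent

section LC

variable {k G : Type u} [CommRing k] [Group G] (𝒰 : LevelSystem G) (A : Rep k G)
  (S : Subgroup G) [S.Normal] {σ : G ⧸ S} {n : ℕ} (hσ : IsGen σ n)

/-- Hilbert 90 in the limit for the subgroup `S`: level-constant 1-cocycles of `S` are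
coboundaries. -/
def LCH1Vanishes : Prop :=
  ∀ c : G → A, IsLC₁ 𝒰 c → (∀ s ∈ S, ∀ t ∈ S, c (s * t) = A.ρ s (c t) + c s) →
    ∃ a : A, ∀ s ∈ S, c s = A.ρ s a - a

variable {𝒰}

/-- the cochain `χ ∪ α` is level-constant. -/
theorem isLC₁_phi (hS : S ∈ 𝒰.sets) (α : A) (hfix : ∃ U ∈ 𝒰.sets, ∀ s ∈ U, A.ρ s α = α) :
    IsLC₁ 𝒰 (phi A S hσ α) := by
  obtain ⟨U, hU, hUα⟩ := hfix
  obtain ⟨W, hW, hWle⟩ := 𝒰.directed S hS U hU
  refine ⟨W, hW, fun g s hs => ?_⟩
  have hsS : s ∈ S := (hWle.trans inf_le_left) hs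
  have hsU : s ∈ U := (hWle.trans inf_le_right) hs
  simp only [phi]
  rw [chi_mul_mem S hσ g hsS, map_mul, Module.End.mul_apply, hUα s hsU]

theorem carry_mul_right (a : A) (g h : G) {s : G} (hs : s ∈ S) :
    carry A S hσ a (g, h * s) = carry A S hσ a (g, h) := by
  simp only [carry, chi_mul_mem S hσ h hs]

theorem carry_mul_left (a : A) (g h : G) {s : G} (hs : s ∈ S) :
    carry A S hσ a (g * s, h) = carry A S hσ a (g, h) := by
  simp only [carry, chi_mul_mem S hσ g hs]

theorem chi_one : chi S hσ 1 = 0 := by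
  unfold chi
  rw [QuotientGroup.mk_one, hσ.lg_one]

theorem carry_one_one (a : A) : carry A S hσ a (1, 1) = 0 := by
  simp only [carry, chi_one, add_zero, Nat.zero_div, zero_smul]

/-- being a norm from `A^S` for the cyclic quotient: quotient form ⟺ explicit form. -/
theorem exists_nrm_iff (a : A) (ha : ∀ g, A.ρ g a = a) (τ : G) (hτ : (τ : G ⧸ S) = σ) :
    (∃ b : (A.quotientToInvariants S),
      ((invQ A S a ha : (A.quotientToInvariants S).ρ.invariants) : A.quotientToInvariants S) =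
        @nrm _ _ _ _ (repAction (A.quotientToInvariants S)) σ n b) ↔
      ∃ b : A, (∀ s ∈ S, A.ρ s b = b) ∧ a = ∑ i ∈ Finset.range n, A.ρ (τ ^ i) b := by
  have key : ∀ b : (A.quotientToInvariants S),
      ((@nrm _ _ _ _ (repAction (A.quotientToInvariants S)) σ n b : A.quotientToInvariants S) : A)
        = ∑ i ∈ Finset.range n, A.ρ (τ ^ i) (b : A) := by
    intro b
    unfold nrm
    rw [AddSubmonoidClass.coe_finsetSum]
    refine Finset.sum_congr rfl fun i _ => ?_
    subst hτ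
    rfl
  constructor
  · rintro ⟨b, hb⟩
    refine ⟨(b : A), fun s hs => b.2 ⟨s, hs⟩, ?_⟩
    rw [← key b, ← hb]
    rfl
  · rintro ⟨b, hbS, hb⟩
    refine ⟨⟨b, fun s => hbS s.1 s.2⟩, ?_⟩
    apply Subtype.ext
    rw [key]
    exact hb

/-- the carry cocycle of an invariant `a` is the coboundary of a level-constant cochain iff the
standard cocycle of `a` on `G ⧸ S` is a coboundary. -/
theorem carry_mem_lcCoboundaries₂_iff (hS : S ∈ 𝒰.sets) (hH : LCH1Vanishes 𝒰 A S)
    (a : A) (ha : ∀ g, A.ρ g a = a) :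
    carry A S hσ a ∈ lcCoboundaries₂ 𝒰 A ↔
      @IsCoboundary₂ (G ⧸ S) (A.quotientToInvariants S) _ _
        (repAction (A.quotientToInvariants S)).toMulAction.toSMul
        (hσ.stdCocycle ((invQ A S a ha : (A.quotientToInvariants S).ρ.invariants) :
          A.quotientToInvariants S)) := by
  let _ := repAction (A.quotientToInvariants S)
  constructor
  · rintro ⟨w, hw, hwy⟩
    have hwy' : carry A S hσ a = dOne A w := hwy.symm
    have hZ : IsZ2 A (carry A S hσ a) :=
      (isZ2_iff_mem_cocycles₂ A _).2 (carry_mem_cocycles₂ A S hσ a ha)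
    have hcS : ∀ s ∈ S, ∀ t ∈ S, carry A S hσ a (s, t) = 0 := by
      intro s hs t ht
      have h1 := carry_mul_right A S hσ a 1 1 ht
      have h2 := carry_mul_left A S hσ a 1 t hs
      rw [one_mul] at h1 h2
      rw [h2, h1, carry_one_one]
    have hcoc : ∀ s ∈ S, ∀ t ∈ S, w (s * t) = A.ρ s (w t) + w s := by
      intro s hs t ht
      have := congrFun hwy' (s, t)
      rw [hcS s hs t ht, dOne_apply] at this
      linear_combination (norm := abel) (1 : ℤ) • this
    obtain ⟨a', ha'⟩ := hH w hw hcoc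
    obtain ⟨a'', hv', hA, hB⟩ := exists_descent_of_exists hZ
      (fun g h s hs => carry_mul_right A S hσ a g h hs)
      (fun g h s hs => carry_mul_left A S hσ a g h hs) w hwy'
      ⟨a', fun s hs => by rw [carry_one_one, sub_zero]; exact ha' s hs⟩
    set v' : G → A := w - fun g => A.ρ g a'' - a'' with hv'_def
    refine ⟨fun q => ⟨v' q.out, fun s => hB _ s.1 s.2⟩, ?_⟩
    intro g h
    induction g using QuotientGroup.induction_on with | H g₀ =>
    induction h using QuotientGroup.induction_on with | H h₀ =>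
    have hout : ∀ x : G, v' ((x : G ⧸ S).out) = v' x := by
      intro x
      obtain ⟨s, hs, es⟩ := out_rel S x
      rw [es, hA x s hs]
    apply Subtype.ext
    have h3 := congrFun hv' (g₀, h₀)
    rw [dOne_apply] at h3
    rw [← QuotientGroup.mk_mul]
    show A.ρ g₀ (v' ((h₀ : G ⧸ S).out)) - v' (((g₀ * h₀ : G) : G ⧸ S).out) + v' ((g₀ : G ⧸ S).out) = _
    rw [hout, hout, hout, ← h3]
    rfl
  · rintro ⟨x, hx⟩
    refine ⟨fun g => ((x (g : G ⧸ S) : A.quotientToInvariants S) : A), ?_, ?_⟩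
    · refine ⟨S, hS, fun g s hs => ?_⟩
      beta_reduce
      rw [QuotientGroup.mk_mul_of_mem g hs]
    · funext ⟨g, h⟩
      have := congrArg (fun y : A.quotientToInvariants S => (y : A)) (hx (g : G ⧸ S) (h : G ⧸ S))
      rw [← dOne_eq, dOne_apply]
      simp only at this
      rw [← QuotientGroup.mk_mul] at this
      exact this

theorem isLC₂_carry (hS : S ∈ 𝒰.sets) (a : A) : IsLC₂ 𝒰 (carry A S hσ a) :=
  ⟨S, hS, fun g g' s s' hs hs' => by
    rw [carry_mul_left A S hσ a _ _ hs, carry_mul_right A S hσ a _ _ hs']⟩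

variable [IsDiscrete 𝒰 A]

theorem dOne_phi_mem_lcCoboundaries₂ (hS : S ∈ 𝒰.sets) (α : A) :
    dOne A (phi A S hσ α) ∈ lcCoboundaries₂ 𝒰 A :=
  ⟨phi A S hσ α, isLC₁_phi A S hσ hS α (IsDiscrete.exists_fix α), (dOne_eq A _).symm⟩

theorem symb_mem_lcCocycles₂ (hS : S ∈ 𝒰.sets) (α : A) (hα : ∀ g, A.ρ g (n • α) = n • α) :
    symb A S hσ α ∈ lcCocycles₂ 𝒰 A := by
  rw [symb_eq A S hσ α hα]
  exact Submodule.sub_mem _
    ⟨carry_mem_cocycles₂ A S hσ _ hα, isLC₂_carry A S hσ hS _⟩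
    (lcCoboundaries₂_le_lcCocycles₂ 𝒰 A (dOne_phi_mem_lcCoboundaries₂ A S hσ hS α))

/-- **Norm-residue criterion, level-constant form.** -/
theorem symb_mem_lcCoboundaries₂_iff (hS : S ∈ 𝒰.sets) (hH : LCH1Vanishes 𝒰 A S)
    (α : A) (hα : ∀ g, A.ρ g (n • α) = n • α) (τ : G) (hτ : (τ : G ⧸ S) = σ) :
    symb A S hσ α ∈ lcCoboundaries₂ 𝒰 A ↔
      ∃ b : A, (∀ s ∈ S, A.ρ s b = b) ∧ n • α = ∑ i ∈ Finset.range n, A.ρ (τ ^ i) b := by
  have h1 : symb A S hσ α ∈ lcCoboundaries₂ 𝒰 A ↔ carry A S hσ (n • α) ∈ lcCoboundaries₂ 𝒰 A := by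
    rw [symb_eq A S hσ α hα]
    exact Submodule.sub_mem_iff_left _ (dOne_phi_mem_lcCoboundaries₂ A S hσ hS α)
  rw [h1, carry_mem_lcCoboundaries₂_iff A S hσ hS hH _ hα, ← exists_nrm_iff A S (n • α) hα τ hτ]
  exact @IsGen.isCoboundary₂_stdCocycle_iff _ _ _ _ (repAction (A.quotientToInvariants S)) _ _ hσ _
    (fun g => (invQ A S (n • α) hα).2 g)

/-- the same, as a statement on classes in `Hlc 2`. -/
theorem Hlc2π_symb_eq_zero_iff (hS : S ∈ 𝒰.sets) (hH : LCH1Vanishes 𝒰 A S)
    (α : A) (hα : ∀ g, A.ρ g (n • α) = n • α) (τ : G) (hτ : (τ : G ⧸ S) = σ) :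
    Hlc2π 𝒰 A ⟨symb A S hσ α, symb_mem_lcCocycles₂ A S hσ hS α hα⟩ = 0 ↔
      ∃ b : A, (∀ s ∈ S, A.ρ s b = b) ∧ n • α = ∑ i ∈ Finset.range n, A.ρ (τ ^ i) b := by
  rw [Hlc2π_eq_zero_iff]
  exact symb_mem_lcCoboundaries₂_iff A S hσ hS hH α hα τ hτ

end LC

end Fermat.Agent.GC.Local.Hilbert
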