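/-
GATE-C / C3-HILBERT (helper61), brick (H4): the NORM-RESIDUE CRITERION for the absolute Galois
group `Gal(Ω/K)` (level system `galLevels K Ω` of helper81, module `Ωˣ`).

`χ : Gal(Ω/K) →* ZMod n` with `ker χ = Gal(Ω/F)`, `F/K` finite Galois (hence cyclic of degree `n`),
`χ τ = 1`, `α ∈ Ωˣ` with `α ^ n ∈ K`.  Then the class of `χ ∪ κ(α)` in `Hlc²(Gal(Ω/K), Ωˣ)` vanishes
⟺  `α ^ n` is a norm from `F`.
-/
import Mathlib
import Fermat.Agent.GC.Local.Hilbert.SymbolLC
import Fermat.Agent.GC.Local.Hilbert.SymbolField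
import Fermat.Agent.GC.Local.Abs.BrauerInj

set_option autoImplicit false

namespace Fermat.Agent.GC.Local.Hilbert

open CategoryTheory groupCohomology Rep IntermediateField
open Fermat.Agent.GC.Local.CycH2 Fermat.Agent.GC.Tate.InfRes2 Fermat.Agent.GC.Prof
open Fermat.Agent.GC.Local.Abs

section Gen

variable {Q Q' : Type*} [Group Q] [Group Q'] {σ : Q} {m : ℕ}

/-- generators are preserved by group isomorphisms. -/
theorem IsGen.map_equiv (h : IsGen σ m) (e : Q ≃* Q') : IsGen (e σ) m where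
  pos := h.pos
  order := by rw [MulEquiv.orderOf_eq, h.order]
  gen := by
    intro x
    obtain ⟨k, hk⟩ := Subgroup.mem_zpowers_iff.1 (h.gen (e.symm x))
    refine Subgroup.mem_zpowers_iff.2 ⟨k, ?_⟩
    rw [← map_zpow, hk, MulEquiv.apply_symm_apply]

/-- a product over the image group as a product over the powers of a lift of a generator. -/
theorem prod_pow_eq_prod_of_surjective {G M : Type*} [Group G] [Fintype Q] [CommMonoid M]
    (π : G →* Q) (hπ : Function.Surjective π) (S : Subgroup G) [S.Normal] (hS : π.ker = S)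
    (τ : G) {n : ℕ} (hgen : IsGen ((τ : G ⧸ S)) n) (f : Q → M) :
    ∏ i ∈ Finset.range n, f (π (τ ^ i)) = ∏ q : Q, f q := by
  subst hS
  have h2 := IsGen.map_equiv hgen (QuotientGroup.quotientKerEquivOfSurjective π hπ)
  rw [← IsGen.prod_pow_eq h2 f]
  refine Finset.prod_congr rfl fun i _ => ?_
  rw [map_pow]
  rfl

end Gen

section Galois

variable {K : Type*} {Ω : Type} [Field K] [Field Ω] [Algebra K Ω] [IsGalois K Ω]
  (F : IntermediateField K Ω) [FiniteDimensional K F] [IsGalois K F]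

/-- the norm from a finite Galois subextension `F` with cyclic group, as a product over the powers
of a lift of the generator. -/
theorem algebraMap_norm_eq_prod_pow (S : Subgroup (Ω ≃ₐ[K] Ω)) [S.Normal]
    (hS : S = F.fixingSubgroup) (τ : Ω ≃ₐ[K] Ω) {n : ℕ}
    (hgen : IsGen ((τ : (Ω ≃ₐ[K] Ω) ⧸ S)) n) (b : F) :
    algebraMap K Ω (Algebra.norm K b) = ∏ i ∈ Finset.range n, (τ ^ i) (b : Ω) := by
  classical
  have h1 : algebraMap K F (Algebra.norm K b) = ∏ σ : F ≃ₐ[K] F, σ b :=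
    Algebra.norm_eq_prod_automorphisms K b
  have h2 : algebraMap K Ω (Algebra.norm K b) = algebraMap F Ω (algebraMap K F (Algebra.norm K b)) :=
    IsScalarTower.algebraMap_apply K F Ω _
  rw [h2, h1, map_prod]
  have hker : (AlgEquiv.restrictNormalHom (K₁ := Ω) F).ker = S := by
    rw [hS, IntermediateField.restrictNormalHom_ker]
  rw [← prod_pow_eq_prod_of_surjective (AlgEquiv.restrictNormalHom (K₁ := Ω) F)
    (AlgEquiv.restrictNormalHom_surjective Ω) S hker τ hgen (fun σ => algebraMap F Ω (σ b))]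
  refine Finset.prod_congr rfl fun i _ => ?_
  exact AlgEquiv.restrictNormal_commutes (τ ^ i) F b

omit [FiniteDimensional K F] in
/-- Hilbert 90 in the limit for the open normal subgroup `Gal(Ω/F)` (helper81's
`exists_coboundary_on_ker`, in `LCH1Vanishes` form). -/
theorem lcH1Vanishes_fixingSubgroup (S : Subgroup (Ω ≃ₐ[K] Ω)) (hS : S = F.fixingSubgroup) :
    LCH1Vanishes (galLevels K Ω) (unitsRep K Ω) S := by
  subst hS
  intro c hc hcoc
  obtain ⟨U, ⟨E, hE, rfl⟩, hlc⟩ := hc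
  have hu : ∀ s t : Ω ≃ₐ[K] Ω, resN K F Ω s = 1 → resN K F Ω t = 1 →
      (fun g => (Additive.toMul (c g : Additive Ωˣ) : Ωˣ)) (s * t) =
        s • (fun g => (Additive.toMul (c g : Additive Ωˣ) : Ωˣ)) t *
          (fun g => (Additive.toMul (c g : Additive Ωˣ) : Ωˣ)) s := by
    intro s t hs ht
    have := hcoc s ((mem_fixingSubgroup_iff_resN F).2 hs) t ((mem_fixingSubgroup_iff_resN F).2 ht)
    exact congrArg (fun z : Additive Ωˣ => (Additive.toMul z : Ωˣ)) this
  obtain ⟨β, hβ⟩ := exists_coboundary_on_ker K F Ω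
    (fun g => (Additive.toMul (c g : Additive Ωˣ) : Ωˣ)) hu E
    (fun g s hs => congrArg (fun z : Additive Ωˣ => (Additive.toMul z : Ωˣ)) (hlc g s hs))
  refine ⟨(Additive.ofMul β : Additive Ωˣ), fun s hs => ?_⟩
  have := hβ s ((mem_fixingSubgroup_iff_resN F).1 hs)
  exact (congrArg (fun z : Ωˣ => (Additive.ofMul z : Additive Ωˣ)) this).symm

variable (K Ω) in
/-- a unit as an element of the Galois module `Ωˣ`. -/
def toU (α : Ωˣ) : (unitsRep K Ω).V := (Additive.ofMul α : Additive Ωˣ)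

variable (K Ω) in
/-- an element of the Galois module `Ωˣ` as a unit. -/
def ofU (x : (unitsRep K Ω).V) : Ωˣ := Additive.toMul (x : Additive Ωˣ)

omit [IsGalois K Ω] in
lemma ofU_sum {ι : Type*} (s : Finset ι) (f : ι → (unitsRep K Ω).V) :
    ((ofU K Ω (∑ i ∈ s, f i) : Ωˣ) : Ω) = ∏ i ∈ s, ((ofU K Ω (f i) : Ωˣ) : Ω) := by
  classical
  induction s using Finset.induction_on with
  | empty => rfl
  | insert a s ha ih =>
    rw [Finset.sum_insert ha, Finset.prod_insert ha, ← ih]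
    rfl

variable {n : ℕ} [NeZero n] (χ : (Ω ≃ₐ[K] Ω) →* Multiplicative (ZMod n))
  (hχ : χ.ker = F.fixingSubgroup) (τ : Ω ≃ₐ[K] Ω) (hτ : χ τ = Multiplicative.ofAdd 1)
  (α : Ωˣ) (hα : ∀ g : Ω ≃ₐ[K] Ω, g ((α : Ω) ^ n) = (α : Ω) ^ n)

include hα in
omit [IsGalois K Ω] [NeZero n] in
lemma rho_nsmul_toU (g : Ω ≃ₐ[K] Ω) :
    (unitsRep K Ω).ρ g (n • toU K Ω α) = n • toU K Ω α := by
  show toU K Ω (Units.map (g : Ω →* Ω) (α ^ n)) = toU K Ω (α ^ n)
  congr 1
  apply Units.ext
  simpa using hα g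

include hχ in
omit [FiniteDimensional K F] [IsGalois K F] [NeZero n] in
lemma ker_mem_galLevels [FiniteDimensional K F] : χ.ker ∈ (galLevels K Ω).sets := by
  rw [hχ]
  exact fixingSubgroup_mem_galLevels F

/-- **Norm-residue criterion for `Gal(Ω/K)`**: the class of `χ ∪ κ(α)` in
`Hlc²(Gal(Ω/K), Ωˣ)` vanishes iff `α ^ n` is a norm from the cyclic extension `F` cut out by `χ`. -/
theorem Hlc2π_symb_units_eq_zero_iff :
    Hlc2π (galLevels K Ω) (unitsRep K Ω) ⟨symb (unitsRep K Ω) χ.ker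
      (isGen_of_char χ τ hτ) (toU K Ω α),
      symb_mem_lcCocycles₂ _ _ _ (ker_mem_galLevels F χ hχ) _ (rho_nsmul_toU α hα)⟩ = 0 ↔
    ∃ b : F, (α : Ω) ^ n = algebraMap K Ω (Algebra.norm K b) := by
  rw [Hlc2π_symb_eq_zero_iff (unitsRep K Ω) χ.ker (isGen_of_char χ τ hτ)
    (ker_mem_galLevels F χ hχ) (lcH1Vanishes_fixingSubgroup F χ.ker hχ) (toU K Ω α)
    (rho_nsmul_toU α hα) τ rfl]
  constructor
  · rintro ⟨b, hbS, hb⟩
    have hmem : ((ofU K Ω b : Ωˣ) : Ω) ∈ F := by
      rw [← InfiniteGalois.fixedField_fixingSubgroup F, IntermediateField.mem_fixedField_iff]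
      intro s hs
      have := hbS s (hχ ▸ hs)
      exact congrArg (fun x => ((ofU K Ω x : Ωˣ) : Ω)) this
    refine ⟨⟨_, hmem⟩, ?_⟩
    rw [algebraMap_norm_eq_prod_pow F χ.ker hχ τ (isGen_of_char χ τ hτ)]
    have := congrArg (fun x => ((ofU K Ω x : Ωˣ) : Ω)) hb
    simp only [ofU_sum] at this
    exact this
  · rintro ⟨b, hb⟩
    rw [algebraMap_norm_eq_prod_pow F χ.ker hχ τ (isGen_of_char χ τ hτ)] at hb
    have hn : 0 < n := Nat.pos_of_ne_zero (NeZero.ne n)
    have hb0 : (b : Ω) ≠ 0 := by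
      intro h0
      have : (α : Ω) ^ n = 0 := by
        rw [hb]
        apply Finset.prod_eq_zero (Finset.mem_range.2 hn)
        rw [pow_zero, h0]
        exact map_zero _
      exact (pow_ne_zero n α.ne_zero) this
    refine ⟨toU K Ω (Units.mk0 (b : Ω) hb0), ?_, ?_⟩
    · intro s hs
      show toU K Ω (Units.map (s : Ω →* Ω) (Units.mk0 (b : Ω) hb0)) = toU K Ω (Units.mk0 (b : Ω) hb0)
      congr 1
      apply Units.ext
      have hs' : s ∈ F.fixingSubgroup := hχ ▸ hs
      exact (IntermediateField.mem_fixingSubgroup_iff F s).1 hs' b b.2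
    · apply Additive.toMul.injective
      apply Units.ext
      have h1 := ofU_sum (K := K) (Ω := Ω) (Finset.range n)
        (fun i => (unitsRep K Ω).ρ (τ ^ i) (toU K Ω (Units.mk0 (b : Ω) hb0)))
      show ((ofU K Ω (n • toU K Ω α) : Ωˣ) : Ω) = ((ofU K Ω _ : Ωˣ) : Ω)
      rw [h1]
      show ((α ^ n : Ωˣ) : Ω) = _
      rw [Units.val_pow_eq_pow_val, hb]
      rfl

end Galois

end Fermat.Agent.GC.Local.Hilbert
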